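/-
S24 (genus of the function field of X₀(N) = genus formula): abstract algebraic interface.
Coordinator: helper83.  All definitions here are FINAL (do not edit; ask helper83).

`LocalData K F X R π` : a family of embeddings `φ x : F →+* ℂ((z))`, `x : X`, "at the center
where the local parameter `π` vanishes", together with a permutation `ρ` of `X` (the local
monodromy).  `GlobalData K F X j` : such data at every center `c : K` (parameter `j - c`) and
at infinity (parameter `j⁻¹`), plus a norm compatibility.
-/
import Mathlib
import Fermat.Prelude.Def_AlgebraicCurve_CanonicalDivisor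

set_option autoImplicit false

open AlgebraicCurve

noncomputable section

namespace Fermat.Agent.S24

/-- Local embedding data at the center with local parameter `π`. -/
structure LocalData (K F X : Type*) [Field K] [Field F] [Algebra K F] [Fintype X]
    (R : Subalgebra K F) (π : F) where
  /-- the embedding of constants -/
  ι : K →+* ℂ
  /-- the embeddings, indexed by `X` -/
  φ : X → F →+* LaurentSeries ℂ
  φ_algebraMap : ∀ x a, φ x (algebraMap K F a) = HahnSeries.C (ι a)
  φ_π : ∀ x y, φ x π = φ y π
  φ_injective : Function.Injective φ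
  /-- the order of `π` in the local coordinate -/
  s : ℕ
  s_pos : 0 < s
  order_π : ∀ x, (φ x π).order = s
  /-- local monodromy -/
  ρ : Equiv.Perm X
  order_ρ : ∀ x f, (φ (ρ x) f).order = (φ x f).order
  dvd_order : ∀ x f (k : ℕ), (ρ ^ k) x = x → (s : ℤ) ∣ k * (φ x f).order
  sym : ∀ a ∈ R, ∀ k : ℕ, ∃ ε ∈ IntermediateField.adjoin K {π}, ∀ x,
      φ x ε = (Finset.univ.val.map fun y => φ y a).esymm k

/-- The relation "the place `v` is induced by the embedding `φ x`". -/
def LocalData.Rel {K F X : Type*} [Field K] [Field F] [Algebra K F] [Fintype X]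
    {R : Subalgebra K F} {π : F} (L : LocalData K F X R π) (v : Place K F) (x : X) : Prop :=
  ∀ f : F, (L.φ x f).order * v.ord π = L.s * v.ord f

/-- Number of orbits of a permutation. -/
def orbCount {X : Type*} (ρ : Equiv.Perm X) : ℕ :=
  Nat.card (MulAction.orbitRel.Quotient (Subgroup.zpowers ρ) X)

/-- Global data: local data at every finite center `c` and at infinity, with a common norm. -/
structure GlobalData (K F X : Type*) [Field K] [Field F] [Algebra K F] [Fintype X] (j : F) where
  R : Subalgebra K F
  frac : ∀ f : F, ∃ a ∈ R, ∃ b ∈ R, b ≠ 0 ∧ f = a / b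
  fin : ∀ c : K, LocalData K F X R (j - algebraMap K F c)
  inf : LocalData K F X R j⁻¹
  norm : ∀ a ∈ R, a ≠ 0 → ∃ n : Polynomial K,
    (∀ c x, (fin c).φ x (Polynomial.aeval j n) = ∏ y, (fin c).φ y a) ∧
      ∀ x, inf.φ x (Polynomial.aeval j n) = ∏ y, inf.φ y a

end Fermat.Agent.S24
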