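/-
S24 package A6 (Residue): over an algebraically closed constant field, every place of a function
field `F ⊇ K(t)` (algebraic) has residue field `K`, hence degree one; and it has a center.
(helper94; statements exactly as in the coordinator's skeleton.)
-/
import Fermat.Agent.S24.Defs
import Fermat.Agent.S24.H52.AddVal
import Fermat.Agent.S24.H94.Residue

set_option autoImplicit false

open AlgebraicCurve

noncomputable section

namespace Fermat.Agent.S24

variable {K F : Type*} [Field K] [Field F] [Algebra K F]

namespace H94

/-- For a nonzero element, positive order means membership in the maximal ideal. -/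
theorem ord_pos_iff_mem_nonunits (v : Place K F) {f : F} (hf : f ≠ 0) :
    0 < v.ord f ↔ f ∈ v.toValuationSubring.nonunits := by
  rw [ValuationSubring.mem_nonunits_iff_or]
  have h := H52.mem_iff_ord_nonneg v (inv_ne_zero hf)
  rw [v.ord_inv] at h
  constructor
  · intro h1
    right
    rw [h]
    omega
  · rintro (h1 | h1)
    · exact absurd h1 hf
    · rw [h] at h1
      omega

theorem ne_zero_of_ord_pos (v : Place K F) {f : F} (h : 0 < v.ord f) : f ≠ 0 := by
  rintro rfl
  simp at h

theorem isAlgebraic_adjoin (t : F) [Algebra.IsAlgebraic (IntermediateField.adjoin K {t}) F]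
    (y : F) : IsAlgebraic (Algebra.adjoin K {t}) y :=
  (IntermediateField.isAlgebraic_adjoin_iff_top.mp
    (inferInstance : Algebra.IsAlgebraic (IntermediateField.adjoin K {t}) F)).isAlgebraic y

/-- The generator `t` of a function field with a place is not a constant. -/
theorem ne_algebraMap [IsAlgClosed K] (t : F)
    [Algebra.IsAlgebraic (IntermediateField.adjoin K {t}) F] (v : Place K F) (c : K) :
    t ≠ algebraMap K F c := by
  intro htc
  obtain ⟨y, hy⟩ : ∃ y : F, y ∉ v.toValuationSubring := by
    by_contra hcon
    push Not at hcon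
    exact v.ne_top' (SetLike.ext fun y => ⟨fun _ => ValuationSubring.mem_top y, fun _ => hcon y⟩)
  have hy0 : y ≠ 0 := fun h => hy (h ▸ v.toValuationSubring.zero_mem)
  have hy1 : v.toValuationSubring.valuation y ≠ 1 := fun h =>
    hy ((v.toValuationSubring.valuation_le_one_iff y).mp h.le)
  have htriv : v.toValuationSubring.valuation.IsTrivialOn K := by
    refine ⟨fun a ha => ?_⟩
    have h1 : v.toValuationSubring.valuation (algebraMap K F a) ≤ 1 :=
      (v.toValuationSubring.valuation_le_one_iff _).mpr (v.algebraMap_mem' a)
    have h2 : v.toValuationSubring.valuation (algebraMap K F a⁻¹) ≤ 1 :=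
      (v.toValuationSubring.valuation_le_one_iff _).mpr (v.algebraMap_mem' a⁻¹)
    have h3 : v.toValuationSubring.valuation (algebraMap K F a) *
        v.toValuationSubring.valuation (algebraMap K F a⁻¹) = 1 := by
      rw [← map_mul, ← map_mul, mul_inv_cancel₀ ha, map_one, map_one]
    refine le_antisymm h1 ?_
    calc (1 : _) = v.toValuationSubring.valuation (algebraMap K F a) *
          v.toValuationSubring.valuation (algebraMap K F a⁻¹) := h3.symm
      _ ≤ v.toValuationSubring.valuation (algebraMap K F a) * 1 := by gcongr
      _ = _ := mul_one _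
  have halg : IsAlgebraic K y := by
    have h1 : IsAlgebraic (Algebra.adjoin K {t}) y := isAlgebraic_adjoin t y
    have hle : Algebra.adjoin K {t} ≤ ⊥ := by
      rw [Algebra.adjoin_le_iff]
      rintro x (rfl : x = t)
      rw [htc]
      exact Subalgebra.algebraMap_mem ⊥ c
    exact Subalgebra.isAlgebraic_of_isAlgebraic_bot (h1.tower_top_of_subalgebra_le hle)
  exact Valuation.transcendental_of_ne_one K y hy0 hy1 halg

end H94

theorem exists_sub_algebraMap_ord_pos [IsAlgClosed K] (t : F)
    [Algebra.IsAlgebraic (IntermediateField.adjoin K {t}) F] (v : Place K F) {f : F}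
    (hf : f ∈ v.toValuationSubring) :
    ∃ a : K, f = algebraMap K F a ∨ 0 < v.ord (f - algebraMap K F a) := by
  obtain ⟨c, hc⟩ := H94.exists_sub_mem_nonunits v.toValuationSubring v.algebraMap_mem' v.ne_top' t
    (H94.isAlgebraic_adjoin t) hf
  refine ⟨c, ?_⟩
  by_cases h0 : f - algebraMap K F c = 0
  · exact Or.inl (sub_eq_zero.mp h0)
  · exact Or.inr ((H94.ord_pos_iff_mem_nonunits v h0).mpr hc)

theorem deg_eq_one [IsAlgClosed K] (t : F)
    [Algebra.IsAlgebraic (IntermediateField.adjoin K {t}) F] (v : Place K F) : v.deg = 1 :=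
  H94.deg_eq_one v t (H94.isAlgebraic_adjoin t)

/-- Every place has a center on the `t`-line: either `t` has a pole, or `t - c` vanishes for a
(unique) `c`. -/
theorem exists_center [IsAlgClosed K] (t : F)
    [Algebra.IsAlgebraic (IntermediateField.adjoin K {t}) F] (v : Place K F) :
    v.ord t < 0 ∨ ∃ c : K, 0 < v.ord (t - algebraMap K F c) := by
  by_cases ht : t ∈ v.toValuationSubring
  · right
    obtain ⟨c, hc | hc⟩ := exists_sub_algebraMap_ord_pos t v ht
    · exact absurd hc (H94.ne_algebraMap t v c)
    · exact ⟨c, hc⟩
  · left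
    have ht0 : t ≠ 0 := fun h => ht (h ▸ v.toValuationSubring.zero_mem)
    have := (H52.mem_iff_ord_nonneg v ht0).not.mp ht
    omega

theorem center_unique (t : F) (v : Place K F) {c c' : K} (h : 0 < v.ord (t - algebraMap K F c))
    (h' : 0 < v.ord (t - algebraMap K F c')) : c = c' :=
  H94.center_unique v.toValuationSubring v.algebraMap_mem'
    ((H94.ord_pos_iff_mem_nonunits v (H94.ne_zero_of_ord_pos v h)).mp h)
    ((H94.ord_pos_iff_mem_nonunits v (H94.ne_zero_of_ord_pos v h')).mp h')

theorem not_center_of_pole (t : F) (v : Place K F) (h : v.ord t < 0) (c : K) :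
    ¬ 0 < v.ord (t - algebraMap K F c) := by
  intro hc
  have ht0 : t ≠ 0 := by
    rintro rfl
    simp at h
  have h1 : t - algebraMap K F c ∈ v.toValuationSubring :=
    (H52.mem_iff_ord_nonneg v (H94.ne_zero_of_ord_pos v hc)).mpr hc.le
  have h2 : t ∈ v.toValuationSubring := by
    have := v.toValuationSubring.add_mem _ _ h1 (v.algebraMap_mem' c)
    simpa using this
  have := (H52.mem_iff_ord_nonneg v ht0).mp h2
  omega

end Fermat.Agent.S24
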