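/-
S24 package A2 (Algebraic): `F` is algebraic over `K(π)`; the monic relation of an element of `R`.
(helper94; statements exactly as in the coordinator's skeleton.)
-/
import Fermat.Agent.S24.Defs

set_option autoImplicit false

open AlgebraicCurve

noncomputable section

namespace Fermat.Agent.S24

variable {K F X : Type*} [Field K] [Field F] [Algebra K F] [Fintype X]
  {R : Subalgebra K F} {π : F}

namespace H94

/-- Vieta, evaluated at one of the roots: `∑_k (-1)^k e_k(s) t^(|s|-k) = 0` for `t ∈ s`. -/
theorem sum_esymm_mul_pow_eq_zero {A : Type*} [CommRing A] (s : Multiset A) {t : A} (ht : t ∈ s) :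
    ∑ k ∈ Finset.range (Multiset.card s + 1), (-1) ^ k * s.esymm k * t ^ (Multiset.card s - k)
      = 0 := by
  have h := congrArg (Polynomial.eval t) (Multiset.prod_X_sub_X_eq_sum_esymm s)
  have h0 : Polynomial.eval t (s.map fun a => Polynomial.X - Polynomial.C a).prod = 0 := by
    rw [Polynomial.eval_multiset_prod]
    apply Multiset.prod_eq_zero
    rw [Multiset.mem_map]
    refine ⟨Polynomial.X - Polynomial.C t, Multiset.mem_map.mpr ⟨t, ht, rfl⟩, ?_⟩
    simp
  rw [h0] at h
  rw [h, Polynomial.eval_finsetSum]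
  refine Finset.sum_congr rfl fun k _ => ?_
  simp [mul_assoc]

end H94

/-- The coefficients of `∏_y (T - φ_y a)` come from `K(π)`, and `a` is a root. -/
theorem LocalData.monic_relation [Nonempty X] (L : LocalData K F X R π) {a : F} (ha : a ∈ R) :
    ∃ ε : ℕ → F, (∀ k, ε k ∈ IntermediateField.adjoin K {π}) ∧
      (∀ k x, L.φ x (ε k) = (Finset.univ.val.map fun y => L.φ y a).esymm k) ∧
      ∑ k ∈ Finset.range (Fintype.card X + 1), (-1) ^ k * ε k * a ^ (Fintype.card X - k) = 0 := by
  choose ε hε1 hε2 using L.sym a ha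
  refine ⟨ε, hε1, hε2, ?_⟩
  obtain ⟨x₀⟩ := (inferInstance : Nonempty X)
  apply (L.φ x₀).injective
  rw [map_zero, map_sum]
  have hcard : Multiset.card (Finset.univ.val.map fun y => L.φ y a) = Fintype.card X := by
    rw [Multiset.card_map]
    rfl
  have hmem : L.φ x₀ a ∈ (Finset.univ.val.map fun y => L.φ y a) :=
    Multiset.mem_map.mpr ⟨x₀, Finset.mem_univ_val x₀, rfl⟩
  have h := H94.sum_esymm_mul_pow_eq_zero _ hmem
  rw [hcard] at h
  rw [← h]
  refine Finset.sum_congr rfl fun k _ => ?_
  rw [map_mul, map_mul, map_pow, map_pow, map_neg, map_one, hε2 k x₀]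

/-- `F` is algebraic over `K(π)`. -/
theorem LocalData.isAlgebraic [Nonempty X] (L : LocalData K F X R π)
    (hR : ∀ f : F, ∃ a ∈ R, ∃ b ∈ R, b ≠ 0 ∧ f = a / b) :
    Algebra.IsAlgebraic (IntermediateField.adjoin K {π}) F := by
  have key : ∀ a ∈ R, IsAlgebraic (IntermediateField.adjoin K {π}) a := by
    intro a ha
    obtain ⟨ε, hε1, hε2, hε3⟩ := L.monic_relation ha
    obtain ⟨x₀⟩ := (inferInstance : Nonempty X)
    have hε0 : ε 0 = 1 := by
      apply (L.φ x₀).injective
      rw [hε2 0 x₀, map_one]
      simp [Multiset.esymm]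
    let p : Polynomial (IntermediateField.adjoin K {π}) :=
      ∑ k ∈ Finset.range (Fintype.card X + 1),
        Polynomial.C ((-1) ^ k * ⟨ε k, hε1 k⟩) * Polynomial.X ^ (Fintype.card X - k)
    refine ⟨p, ?_, ?_⟩
    · intro hp
      have hc := congrArg (fun q => Polynomial.coeff q (Fintype.card X)) hp
      simp only [p, Polynomial.finsetSum_coeff, Polynomial.coeff_C_mul, Polynomial.coeff_X_pow,
        Polynomial.coeff_zero] at hc
      rw [Finset.sum_eq_single 0] at hc
      · simp only [pow_zero, one_mul, Nat.sub_zero, if_true, mul_one] at hc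
        have : (⟨ε 0, hε1 0⟩ : IntermediateField.adjoin K {π}) = 0 := hc
        have h0 : ε 0 = 0 := congrArg Subtype.val this
        rw [hε0] at h0
        exact one_ne_zero h0
      · intro k hk hk0
        have hk' : k ≤ Fintype.card X := Nat.lt_succ_iff.mp (Finset.mem_range.mp hk)
        rw [if_neg (by omega), mul_zero]
      · intro h
        exact absurd (Finset.mem_range.mpr (Nat.succ_pos _)) h
    · rw [← hε3]
      simp only [p, map_sum, map_mul, Polynomial.aeval_C, map_pow, Polynomial.aeval_X]
      refine Finset.sum_congr rfl fun k _ => ?_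
      simp [map_neg, map_one]
  refine ⟨fun f => ?_⟩
  obtain ⟨a, ha, b, hb, -, rfl⟩ := hR f
  rw [div_eq_mul_inv]
  exact (key a ha).mul (key b hb).inv

end Fermat.Agent.S24
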