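/-
S24 package A7 (Fiber): the embeddings inducing a given place form exactly one `ρ`-orbit, and the
ramification index `v.ord π` is the size of that orbit.
(helper43; statements exactly as in the coordinator's skeleton; proofs in `H43/Fiber.lean`.)

Proof sketch.  Let `e = v.ord π`, `t` with `v.ord t = 1`, `e' = (φ x t).order` (so `e' * e = s`).
* `Rel v x → Rel v (ρ x)` by `order_ρ`.
* `e ∣ minimalPeriod ρ x` by `dvd_order` applied to `t`.
* `#{y | Rel v y} ≤ e`: the map `y ↦ leadingCoeff (φ y t)` takes values in the `e`-th roots of a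
  fixed number (write `π = u t^e`, `u` a unit with residue `u₀ ∈ K` by
  `exists_sub_algebraMap_ord_pos`; then `leadingCoeff (φ y u) = ι u₀` for all `y`) and is
  injective: if `φ y t`, `φ y' t` have the same leading coefficient, then `δ = φ y - φ y'`
  satisfies `order (δ f) ≥ min (order (δ t)) (n e')` for all `n` and all `f` in the valuation
  ring (expand `f = f₀ + t f₁`, `f₀ ∈ K`), and `0 = δ π = δ (u t^e)` forces `δ t = 0`, hence
  `δ = 0` on the valuation ring and on `F`; so `y = y'` by `φ_injective`.
-/
import Fermat.Agent.S24.Ord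
import Fermat.Agent.S24.Algebraic
import Fermat.Agent.S24.Residue
import Fermat.Agent.S24.H43.Fiber

set_option autoImplicit false

open AlgebraicCurve

noncomputable section

namespace Fermat.Agent.S24

variable {K F X : Type*} [Field K] [Field F] [Algebra K F] [Fintype X]
  {R : Subalgebra K F} {π : F}

theorem LocalData.rel_iff_orbit [IsAlgClosed K] [Nonempty X] (L : LocalData K F X R π)
    (hR : ∀ f : F, ∃ a ∈ R, ∃ b ∈ R, b ≠ 0 ∧ f = a / b)
    (v : Place K F) (hv : 0 < v.ord π) {x : X} (hx : L.Rel v x) (y : X) :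
    L.Rel v y ↔ ∃ k : ℕ, (L.ρ ^ k) x = y := by
  have : Algebra.IsAlgebraic (IntermediateField.adjoin K {π}) F := L.isAlgebraic hR
  exact H43.rel_iff_orbit' L v hv hx y

theorem LocalData.ord_π_eq_minimalPeriod [IsAlgClosed K] [Nonempty X] (L : LocalData K F X R π)
    (hR : ∀ f : F, ∃ a ∈ R, ∃ b ∈ R, b ≠ 0 ∧ f = a / b)
    (v : Place K F) (hv : 0 < v.ord π) {x : X} (hx : L.Rel v x) :
    v.ord π = (Function.minimalPeriod L.ρ x : ℤ) := by
  have : Algebra.IsAlgebraic (IntermediateField.adjoin K {π}) F := L.isAlgebraic hR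
  exact H43.ord_π_eq_minimalPeriod' L v hv hx

end Fermat.Agent.S24
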