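/-
S24 package AN-BRIDGE (generic algebra): a ring homomorphism on polynomials with the same kernel
as the evaluation `ev` extends uniquely to the fraction field of the range of `ev`.
Statements FINAL.
-/
import Mathlib
import Fermat.Agent.S24.H47.Extend

set_option autoImplicit false

noncomputable section

namespace Fermat.Agent.S24

theorem exists_unique_extension {K F σ L : Type*} [Field K] [Field F] [Algebra K F] [Field L]
    (ev : MvPolynomial σ K →ₐ[K] F)
    (hfrac : ∀ f : F, ∃ P Q : MvPolynomial σ K, ev Q ≠ 0 ∧ f = ev P / ev Q)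
    (Φ : MvPolynomial σ K →+* L) (hker : ∀ P, Φ P = 0 ↔ ev P = 0) :
    ∃! φ : F →+* L, ∀ P, φ (ev P) = Φ P :=
  H47.existsUnique_extend (ev : MvPolynomial σ K →+* F) hfrac Φ hker

end Fermat.Agent.S24
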