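/-
S24: modular definitions shared by the analytic packages.  Coordinator: helper83.
FINAL definitions (do not edit; ask helper83).
-/
import Mathlib
import Fermat.Prelude.Def_ModularCurve_ArithmeticGalois
import Fermat.Prelude.Def_ModularCurve_JqCoeff

set_option autoImplicit false

open UpperHalfPlane ModularForm EisensteinSeries CongruenceSubgroup ModularCurve
open scoped MatrixGroups

noncomputable section

namespace Fermat.Agent.S24

/-- `ℚ̄`. -/
abbrev Kbar : Type := AlgebraicClosure ℚ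

theorem nonempty_iota : Nonempty (Kbar →+* ℂ) := by
  let _ : Algebra ℚ Kbar := AlgebraicClosure.instAlgebra ℚ
  have _ : Algebra.IsAlgebraic ℚ Kbar := AlgebraicClosure.isAlgebraic ℚ
  exact ⟨((IsAlgClosed.lift : Kbar →ₐ[ℚ] ℂ) : Kbar →+* ℂ)⟩

/-- A fixed embedding `ℚ̄ → ℂ`. -/
def iota : Kbar →+* ℂ := Classical.choice nonempty_iota

/-- The analytic `j`-function `E₄³/Δ` on the upper half plane. -/
def Jfun (τ : ℍ) : ℂ := E₄ τ ^ 3 / ModularForm.discriminant τ

/-- `τ ↦ d τ` on the upper half plane. -/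
def levelMul (d : ℕ) [NeZero d] (τ : ℍ) : ℍ :=
  ⟨(d : ℂ) * τ, by
    have hd : (0 : ℝ) < d := by exact_mod_cast Nat.pos_of_ne_zero (NeZero.ne d)
    simpa using mul_pos hd τ.im_pos⟩

@[simp] theorem coe_levelMul (d : ℕ) [NeZero d] (τ : ℍ) : (levelMul d τ : ℂ) = d * τ := rfl

/-- `J(dτ)`. -/
def Jd (d : ℕ) [NeZero d] (τ : ℍ) : ℂ := Jfun (levelMul d τ)

instance instNeZeroDivisor (N : ℕ) (d : N.divisors) : NeZero (d : ℕ) :=
  ⟨(Nat.pos_of_mem_divisors d.2).ne'⟩

/-- The function field `F = ℚ̄(j_d : d ∣ N) ⊂ ℚ̄((q))`. -/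
abbrev FF (N : ℕ) : Type := ↥(modularFunctionFieldBar N)

/-- The quotient `SL(2,ℤ)/Γ₀(N)` (left cosets, left multiplication action). -/
abbrev XX (N : ℕ) : Type := SL(2, ℤ) ⧸ Gamma0 N

/-- The generator `j_d = j(q^d)` of `F`. -/
def jF (N : ℕ) (d : N.divisors) : FF N :=
  ⟨coeffEmb Kbar (qExpand ℚ (d : ℕ) jq),
    coeffEmb_mem_laurentBaseChange Kbar (jqd_mem_full N (Nat.dvd_of_mem_divisors d.2))⟩

/-- The divisor `1` of `N`. -/
def oneDiv (N : ℕ) [NeZero N] : N.divisors := ⟨1, Nat.one_mem_divisors.mpr (NeZero.ne N)⟩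

/-- The divisor `N` of `N`. -/
def topDiv (N : ℕ) [NeZero N] : N.divisors := ⟨N, Nat.mem_divisors_self N (NeZero.ne N)⟩

/-- The element `j` of `F`. -/
def jgen (N : ℕ) [NeZero N] : FF N := jF N (oneDiv N)

/-- Evaluation of polynomials in the `j_d` inside `F`. -/
def evF (N : ℕ) : MvPolynomial (N.divisors) Kbar →ₐ[Kbar] FF N := MvPolynomial.aeval (jF N)

/-- Evaluation of polynomials in the `j_d` as functions on the upper half plane. -/
def Theta (N : ℕ) : MvPolynomial (N.divisors) Kbar →+* (ℍ → ℂ) :=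
  MvPolynomial.eval₂Hom ((Pi.constRingHom ℍ ℂ).comp iota) (fun d => Jd (d : ℕ))

/-- The translate `Θ(P) ∘ g_x⁻¹` for the coset `x = g_x Γ₀(N)` (independent of the choice
of `g_x`, see `transl_mk`). -/
def transl (N : ℕ) (x : XX N) (P : MvPolynomial (N.divisors) Kbar) : ℍ → ℂ :=
  fun τ => Theta N P ((Quotient.out x : SL(2, ℤ))⁻¹ • τ)

/-- The local parameter `e^{2πiτ/N}` at `i∞`. -/
def qN (N : ℕ) (τ : ℍ) : ℂ := Function.Periodic.qParam (N : ℝ) (τ : ℂ)

/-- Taylor series at `τ₀` of a function on the upper half plane (junk unless holomorphic). -/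
def taylorAt (τ₀ : ℍ) (f : ℍ → ℂ) : PowerSeries ℂ :=
  PowerSeries.mk fun n => iteratedDeriv n (f ∘ ofComplex) (τ₀ : ℂ) / (n.factorial : ℂ)

/-- `f` has the (convergent) Laurent expansion `L` in the local parameter `u` along `𝔣`. -/
def HasExp (𝔣 : Filter ℍ) (u : ℍ → ℂ) (f : ℍ → ℂ) (L : LaurentSeries ℂ) : Prop :=
  ∀ᶠ τ in 𝔣, HasSum (fun n : ℤ => L.coeff n * u τ ^ n) (f τ)

end Fermat.Agent.S24
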