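/-
S24 package AN-JFACTS: the final statements about `Jfun` (ModDefs.lean) used by the assembly.
Sources: H64/JBasic.lean, H64/JDeriv.lean, H64/JOrder.lean (helper64), H18/JqExp.lean (helper18),
H68/TranslJd.lean (helper68).  `Jfun`, `H64.J`, `H6.kleinJ` are definitionally equal.
Statements FINAL (skeleton of helper83); proofs: helper64.
-/
import Fermat.Agent.S24.ModDefs
import Fermat.Agent.S24.H64.JBasic
import Fermat.Agent.S24.H64.JOrder
import Fermat.Agent.S24.H18.JqExp
import Fermat.Agent.S24.H68.TranslJd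

set_option autoImplicit false

open UpperHalfPlane Filter Topology ModularCurve ModularForm EisensteinSeries
open scoped MatrixGroups Manifold

noncomputable section

namespace Fermat.Agent.S24

theorem Jfun_mdiff : MDiff Jfun :=
  H64.mdifferentiable_J

theorem Jfun_smul (γ : SL(2, ℤ)) (τ : ℍ) : Jfun (γ • τ) = Jfun τ :=
  H64.J_smul γ τ

theorem Jfun_surjective : Function.Surjective Jfun :=
  H64.J_surjective

/-- **AN-JQ.** `J · q` is the convergent power series `jNum` in `q = e^{2πiτ}`. -/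
theorem hasSum_Jfun_mul_q (τ : ℍ) :
    HasSum (fun n : ℕ => PowerSeries.coeff n (jNum.map (Int.castRingHom ℂ)) * qN 1 τ ^ n)
      (Jfun τ * qN 1 τ) := by
  have h := H18.hasSum_jNum τ
  have hq : qN 1 τ = Function.Periodic.qParam 1 (τ : ℂ) := by
    simp [qN]
  rw [hq, mul_comm]
  simpa [PowerSeries.coeff_map, Jfun] using h

theorem tendsto_Jfun_mul_q :
    Tendsto (fun τ : ℍ => Jfun τ * Function.Periodic.qParam 1 τ) atImInfty (𝓝 1) :=
  H68.tendsto_Jfun_mul_qParam

/-- The elliptic point of order 3. -/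
abbrev ellRho : ℍ := H64.rho

theorem Jfun_I : Jfun UpperHalfPlane.I = 1728 :=
  H64.J_I

theorem Jfun_rho : Jfun ellRho = 0 :=
  H64.J_rho

/-- **AN-JDERIV.** -/
theorem analyticOrderAt_Jfun_I :
    analyticOrderAt (fun z : ℂ => Jfun (ofComplex z) - 1728) (UpperHalfPlane.I : ℂ) = 2 :=
  H64.analyticOrderAt_Jfun_sub_I

theorem analyticOrderAt_Jfun_rho :
    analyticOrderAt (fun z : ℂ => Jfun (ofComplex z)) (ellRho : ℂ) = 3 :=
  H64.analyticOrderAt_Jfun_rho

theorem analyticOrderAt_Jfun_generic (τ₀ : ℍ) (h0 : Jfun τ₀ ≠ 0) (h1 : Jfun τ₀ ≠ 1728) :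
    analyticOrderAt (fun z : ℂ => Jfun (ofComplex z) - Jfun τ₀) (τ₀ : ℂ) = 1 :=
  H64.analyticOrderAt_J_of_ne h0 h1

/-- Multipliers of the elliptic elements. -/
theorem isPrimitiveRoot_denom_S :
    IsPrimitiveRoot (denom ((ModularGroup.S : SL(2, ℤ)) : GL (Fin 2) ℝ) UpperHalfPlane.I ^ 2) 2 := by
  have h : denom ((ModularGroup.S : SL(2, ℤ)) : GL (Fin 2) ℝ) UpperHalfPlane.I ^ 2 = -1 := by
    rw [ModularGroup.denom_S]
    simp
  rw [h]
  exact IsPrimitiveRoot.neg_one 0 (by norm_num)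

theorem isPrimitiveRoot_denom_ST :
    IsPrimitiveRoot
      (denom ((ModularGroup.S * ModularGroup.T : SL(2, ℤ)) : GL (Fin 2) ℝ) ellRho ^ 2) 3 := by
  have hr := H64.rho_sq_add
  have h : denom ((ModularGroup.S * ModularGroup.T : SL(2, ℤ)) : GL (Fin 2) ℝ) ellRho ^ 2
      = (H64.rho : ℂ) := by
    rw [H64.denom_ST_rho]
    linear_combination hr
  rw [h]
  have h3 : (H64.rho : ℂ) ^ 3 = 1 := by
    linear_combination ((H64.rho : ℂ) - 1) * hr
  refine IsPrimitiveRoot.mk_of_lt _ (by norm_num) h3 ?_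
  intro l hl0 hl3 hl
  interval_cases l
  · -- rho = 1
    rw [pow_one] at hl
    rw [hl] at hr
    norm_num at hr
  · -- rho ^ 2 = 1
    have h2 : (H64.rho : ℂ) = -2 := by linear_combination hr - hl
    rw [h2] at h3
    norm_num at h3

end Fermat.Agent.S24
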