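/-
S24 package AN-TRANSL: the functions `Theta N P` and their translates `transl N x P`.
Sources: H68/Translates.lean, H68/TranslJd.lean (helper68: exists_affine_of_invariant,
dilate_invariant_of_mem_Gamma0, dilate_translate_eq_iff), H49/TranslSmul.lean (helper49),
JFacts.lean.  Statements FINAL (skeleton of helper83); proofs: helper49.
-/
import Fermat.Agent.S24.JFacts
import Fermat.Agent.S24.H68.TranslJd
import Fermat.Agent.S24.H49.TranslSmul

set_option autoImplicit false

open UpperHalfPlane Filter Topology ModularCurve CongruenceSubgroup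
open scoped MatrixGroups Manifold

noncomputable section

namespace Fermat.Agent.S24

variable (N : ℕ)

theorem Theta_X (d : N.divisors) : Theta N (MvPolynomial.X d) = Jd (d : ℕ) := by
  funext τ
  simp [H68.Theta_apply]

theorem Theta_C (a : Kbar) : Theta N (MvPolynomial.C a) = fun _ => iota a := by
  funext τ
  simp [H68.Theta_apply]

theorem Jd_one : Jd 1 = Jfun := H49.Jd_one

theorem mdiff_Jd (d : ℕ) [NeZero d] : MDiff (Jd d) := H49.mdifferentiable_Jd d

theorem mdiff_Theta (P : MvPolynomial (N.divisors) Kbar) : MDiff (Theta N P) :=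
  H49.mdifferentiable_Theta N P

/-- `Θ(P)` is invariant under `Γ₀(N)`. -/
theorem Theta_smul_of_mem [NeZero N] {γ : SL(2, ℤ)} (hγ : γ ∈ Gamma0 N)
    (P : MvPolynomial (N.divisors) Kbar) (τ : ℍ) : Theta N P (γ • τ) = Theta N P τ :=
  H68.Theta_smul_of_mem_Gamma0 N P hγ τ

theorem transl_mk [NeZero N] (g : SL(2, ℤ)) (P : MvPolynomial (N.divisors) Kbar) (τ : ℍ) :
    transl N (QuotientGroup.mk g : XX N) P τ = Theta N P (g⁻¹ • τ) :=
  congrFun (H68.transl_mk N g P) τ

theorem transl_smul [NeZero N] (g : SL(2, ℤ)) (x : XX N) (P : MvPolynomial (N.divisors) Kbar)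
    (τ : ℍ) : transl N (g • x) P τ = transl N x P (g⁻¹ • τ) :=
  H49.transl_smul' N x P g τ

/-- `P ↦ transl N x P` as a ring homomorphism. -/
def translHom (x : XX N) : MvPolynomial (N.divisors) Kbar →+* (ℍ → ℂ) where
  toFun P := transl N x P
  map_one' := by funext τ; simp [transl]
  map_mul' P Q := by funext τ; simp [transl]
  map_zero' := by funext τ; simp [transl]
  map_add' P Q := by funext τ; simp [transl]

@[simp] theorem translHom_apply (x : XX N) (P : MvPolynomial (N.divisors) Kbar) :
    translHom N x P = transl N x P := rfl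

theorem mdiff_transl (x : XX N) (P : MvPolynomial (N.divisors) Kbar) : MDiff (transl N x P) :=
  H49.mdifferentiable_transl N x P

theorem transl_C (x : XX N) (a : Kbar) : transl N x (MvPolynomial.C a) = fun _ => iota a :=
  H49.transl_C N x a

/-- `J ∘ g⁻¹ = J`. -/
theorem transl_X_one [NeZero N] (x : XX N) : transl N x (MvPolynomial.X (oneDiv N)) = Jfun :=
  H49.transl_X_oneDiv N x

theorem transl_eq_zero_iff (x : XX N) (P : MvPolynomial (N.divisors) Kbar) :
    transl N x P = 0 ↔ Theta N P = 0 := by
  constructor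
  · intro h
    funext τ
    have := congrFun h ((Quotient.out x : SL(2, ℤ)) • τ)
    simpa [transl] using this
  · intro h
    funext τ
    simp [transl, h]

/-- **Γ₀(N)-detection**: the translates of `J(Nτ)` by distinct cosets are distinct. -/
theorem transl_injective [NeZero N] {x y : XX N}
    (h : transl N x (MvPolynomial.X (topDiv N)) = transl N y (MvPolynomial.X (topDiv N))) :
    x = y :=
  H68.transl_X_topDiv_injective N h

/-- The translate of `J(dτ)` by a coset is `J ((Aτ+B)/D)` with `A D = d`. -/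
theorem exists_affine_transl [NeZero N] (x : XX N) (d : N.divisors) :
    ∃ A B D : ℕ, 0 < A ∧ 0 < D ∧ B < D ∧ A * D = (d : ℕ) ∧
      ∀ τ : ℍ, transl N x (MvPolynomial.X d) τ = Jfun (ofComplex (((A : ℂ) * τ + B) / D)) := by
  obtain ⟨A, B, D, hA, hD, hBD, hAD, -, hmain⟩ :=
    H68.exists_Jd_smul_eq_affine (d : ℕ) ((Quotient.out x : SL(2, ℤ))⁻¹)
  exact ⟨A, B, D, hA, hD, hBD, hAD, fun τ => by rw [H49.transl_X, hmain]⟩

end Fermat.Agent.S24
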