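/-
S24 package AN-INF: `ℚ̄`-rational expansions at `i∞` (in `u = e^{2πiτ/N}`) of all translates.
Uses Exp.lean (HasExp toolkit), Transl.lean (exists_affine_transl), JFacts.lean
(hasSum_Jfun_mul_q).  Statements FINAL.

Sketch: `transl N x (X d) τ = Jfun ((Aτ+B)/D)`, `A D = d ∣ N`; by `HasExp.comp_affine` with
`m = N A / D` its expansion is `qExpand ℂ m (scaleHom ζ (jqModC ℂ))`, `ζ = e^{2πiB/D} = iota ζ_K`
for a root of unity `ζ_K : ℚ̄` — so it is `coeffMap iota` of a series over `ℚ̄`.
-/
import Fermat.Agent.S24.Exp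
import Fermat.Agent.S24.Transl
import Fermat.Agent.S24.H18.JExp
import Fermat.Prelude.Thm_ModularCurve_coeffMap_qExpand

set_option autoImplicit false

open UpperHalfPlane Filter Topology ModularCurve CongruenceSubgroup
open scoped MatrixGroups Manifold

noncomputable section

namespace Fermat.Agent.S24

/-! ### Private helpers (helper88) -/

namespace H88

/-- Identity theorem on `ℍ`: a holomorphic function vanishing near `i∞` vanishes identically. -/
theorem eq_zero_of_eventuallyEq_atImInfty {F : ℍ → ℂ} (hF : MDiff F) (h : F =ᶠ[atImInfty] 0) :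
    F = 0 := by
  obtain ⟨A, hA⟩ := (UpperHalfPlane.atImInfty_mem _).mp h
  have h1 : AnalyticOnNhd ℂ (F ∘ ofComplex) {z : ℂ | 0 < z.im} :=
    (UpperHalfPlane.mdifferentiable_iff.mp hF).analyticOnNhd isOpen_upperHalfPlaneSet
  set B : ℝ := max A 0 + 1 with hB
  have hB0 : 0 < B := by positivity
  have hBA : A < B := lt_of_le_of_lt (le_max_left A 0) (lt_add_one _)
  set z₀ : ℂ := (B : ℂ) * Complex.I with hz₀
  have hz₀im : z₀.im = B := by simp [hz₀]
  have hmem : z₀ ∈ {z : ℂ | 0 < z.im} := by
    show 0 < z₀.im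
    rw [hz₀im]; exact hB0
  have hopen : IsOpen {z : ℂ | max A 0 < z.im} :=
    isOpen_lt continuous_const Complex.continuous_im
  have hz₀' : z₀ ∈ {z : ℂ | max A 0 < z.im} := by
    show max A 0 < z₀.im
    rw [hz₀im]; exact lt_add_one _
  have hev : (F ∘ ofComplex) =ᶠ[𝓝 z₀] 0 := by
    filter_upwards [hopen.mem_nhds hz₀'] with z hz
    have hz0 : 0 < z.im := lt_of_le_of_lt (le_max_right A 0) hz
    have hzA : A ≤ z.im := le_trans (le_max_left A 0) hz.le
    simp only [Function.comp_apply, Pi.zero_apply]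
    rw [ofComplex_apply_of_im_pos hz0]
    exact hA ⟨z, hz0⟩ hzA
  have h2 := h1.eqOn_zero_of_preconnected_of_eventuallyEq_zero
    (Convex.isPreconnected (convex_halfSpace_im_gt 0)) hmem hev
  funext τ
  have := h2 τ.im_pos
  simpa using this

theorem scaleHom_one {C : Type*} [Field C] (L : LaurentSeries C) : scaleHom (1 : Cˣ) L = L := by
  ext n
  simp

theorem coeffMap_C (a : Kbar) :
    coeffMap iota (HahnSeries.C a : LaurentSeries Kbar) = HahnSeries.C (iota a) := by
  rw [HahnSeries.C_apply, coeffMap_single, HahnSeries.C_apply]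

theorem eventually_qN_ne_zero (N : ℕ) : ∀ᶠ τ in atImInfty, qN N τ ≠ 0 :=
  Filter.Eventually.of_forall fun τ => qN_ne_zero N τ

end H88

open H88

theorem hasExp_Jfun : HasExp atImInfty (qN 1) Jfun (jqModC ℂ) := H18.hasExp_Jfun

theorem coeffMap_iota_jqModC : coeffMap iota (jqModC Kbar) = jqModC ℂ := map_jqModC iota

theorem coe_jF (N : ℕ) (d : N.divisors) :
    ((jF N d : FF N) : LaurentSeries Kbar) = qExpand Kbar (d : ℕ) (jqModC Kbar) := by
  show coeffEmb Kbar (qExpand ℚ (d : ℕ) jq) = _
  rw [coeffEmb, coeffMap_qExpand, ← jqModC_rat]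
  congr 1
  exact map_jqModC (algebraMap ℚ Kbar)

/-- Every root of unity of `ℂ` comes from `ℚ̄`. -/
theorem exists_iota_eq_exp (B D : ℕ) (hD : 0 < D) :
    ∃ ζ : Kbarˣ, ζ ^ D = 1 ∧ iota (ζ : Kbar) = Complex.exp (2 * Real.pi * Complex.I * B / D) := by
  have : NeZero D := ⟨hD.ne'⟩
  obtain ⟨ζ', hζ'⟩ := HasEnoughRootsOfUnity.exists_primitiveRoot Kbar D
  have hζ : IsPrimitiveRoot (iota ζ') D := hζ'.map_of_injective iota.injective
  have h1 : Complex.exp (2 * Real.pi * Complex.I * B / D) ^ D = 1 := by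
    rw [← Complex.exp_nat_mul]
    have hD' : (D : ℂ) ≠ 0 := by exact_mod_cast hD.ne'
    have : (D : ℂ) * (2 * Real.pi * Complex.I * B / D) = (B : ℂ) * (2 * Real.pi * Complex.I) := by
      field_simp
    rw [this, Complex.exp_nat_mul, Complex.exp_two_pi_mul_I, one_pow]
  obtain ⟨i, -, hi⟩ := hζ.eq_pow_of_pow_eq_one h1
  have hu : IsUnit ζ' := hζ'.isUnit hD.ne'
  refine ⟨hu.unit ^ i, ?_, ?_⟩
  · rw [← pow_mul, mul_comm, pow_mul]
    ext
    simp [hζ'.pow_eq_one]
  · rw [← hi]
    simp

namespace H88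

/-- The expansion at `i∞` of `τ ↦ J((Aτ+B)/D)` in the parameter `qN N`. -/
theorem hasExp_Jfun_affine (N A B D m : ℕ) [NeZero N] [NeZero m] (hA : 0 < A) (hD : 0 < D)
    (hm : m * D = N * A) (ζ : Kbarˣ)
    (hζ : iota (ζ : Kbar) = Complex.exp (2 * Real.pi * Complex.I * B / D)) :
    HasExp atImInfty (qN N) (fun τ => Jfun (ofComplex (((A : ℂ) * τ + B) / D)))
      (coeffMap iota (qExpand Kbar m (scaleHom ζ (jqModC Kbar)))) := by
  have h := HasExp.comp_affine hasExp_Jfun N A B D m hA hD hm
    (Units.map (iota : Kbar →* ℂ) ζ) (by simpa using hζ)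
  rw [coeffMap_qExpand, coeffMap_scaleHom, coeffMap_iota_jqModC]
  exact h

/-- The expansion of `J(dτ)` in the parameter `qN N`. -/
theorem hasExp_Jd (N d : ℕ) [NeZero N] [NeZero d] :
    HasExp atImInfty (qN N) (Jd d) (coeffMap iota (qExpand Kbar (N * d) (jqModC Kbar))) := by
  have h := hasExp_Jfun_affine N d 0 1 (N * d) (Nat.pos_of_ne_zero (NeZero.ne d)) one_pos
    (by ring) 1 (by simp)
  rw [scaleHom_one] at h
  refine h.congr (Filter.Eventually.of_forall fun τ => ?_)
  show Jfun (ofComplex (((d : ℂ) * τ + (0 : ℕ)) / (1 : ℕ))) = Jfun (levelMul d τ)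
  congr 1
  have hd : (0 : ℝ) < d := by exact_mod_cast Nat.pos_of_ne_zero (NeZero.ne d)
  have him : 0 < ((d : ℂ) * τ).im := by simpa using mul_pos hd τ.im_pos
  have : ((d : ℂ) * τ + (0 : ℕ)) / (1 : ℕ) = (d : ℂ) * τ := by simp
  rw [this, ofComplex_apply_of_im_pos him]
  rfl

end H88

variable (N : ℕ) [NeZero N]

theorem exists_genInf (x : XX N) (d : N.divisors) :
    ∃ L : LaurentSeries Kbar,
      HasExp atImInfty (qN N) (transl N x (MvPolynomial.X d)) (coeffMap iota L) := by
  obtain ⟨A, B, D, hA, hD, -, hAD, h⟩ := exists_affine_transl N x d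
  have hdN : (d : ℕ) ∣ N := Nat.dvd_of_mem_divisors d.2
  have hDN : D ∣ N := (Dvd.intro_left A hAD).trans hdN
  obtain ⟨e, he⟩ := hDN
  obtain ⟨ζ, -, hζ⟩ := exists_iota_eq_exp B D hD
  have he0 : e ≠ 0 := by
    rintro rfl
    exact NeZero.ne N (by rw [he, mul_zero])
  have : NeZero (e * A) := ⟨Nat.mul_ne_zero he0 hA.ne'⟩
  have hexp := hasExp_Jfun_affine N A B D (e * A) hA hD (by rw [he]; ring) ζ hζ
  refine ⟨qExpand Kbar (e * A) (scaleHom ζ (jqModC Kbar)), ?_⟩
  have heq : transl N x (MvPolynomial.X d)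
      = fun τ : ℍ => Jfun (ofComplex (((A : ℂ) * τ + B) / D)) := funext h
  rw [heq]
  exact hexp

/-- The chosen `ℚ̄`-rational expansion of the translate of `J(dτ)`. -/
def genInf (x : XX N) (d : N.divisors) : LaurentSeries Kbar := (exists_genInf N x d).choose

/-- The expansion homomorphism at infinity. -/
def PhiInf (x : XX N) : MvPolynomial (N.divisors) Kbar →+* LaurentSeries Kbar :=
  MvPolynomial.eval₂Hom (HahnSeries.C : Kbar →+* LaurentSeries Kbar) (genInf N x)

theorem PhiInf_C (x : XX N) (a : Kbar) : PhiInf N x (MvPolynomial.C a) = HahnSeries.C a := by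
  simp [PhiInf]

namespace H88

theorem PhiInf_X (x : XX N) (d : N.divisors) :
    PhiInf N x (MvPolynomial.X d) = genInf N x d := by
  simp [PhiInf]

theorem hasExp_genInf (x : XX N) (d : N.divisors) :
    HasExp atImInfty (qN N) (transl N x (MvPolynomial.X d)) (coeffMap iota (genInf N x d)) :=
  (exists_genInf N x d).choose_spec

end H88

theorem hasExp_PhiInf (x : XX N) (P : MvPolynomial (N.divisors) Kbar) :
    HasExp atImInfty (qN N) (transl N x P) (coeffMap iota (PhiInf N x P)) := by
  induction P using MvPolynomial.induction_on with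
  | C a =>
    rw [PhiInf_C, coeffMap_C, transl_C]
    exact HasExp.const _ _ _
  | add p q hp hq =>
    rw [map_add, map_add]
    have : transl N x (p + q) = transl N x p + transl N x q := map_add (translHom N x) p q
    rw [this]
    exact hp.add hq
  | mul_X p d hp =>
    rw [map_mul, map_mul, PhiInf_X]
    have : transl N x (p * MvPolynomial.X d) = transl N x p * transl N x (MvPolynomial.X d) :=
      map_mul (translHom N x) p (MvPolynomial.X d)
    rw [this]
    exact HasExp.mul (eventually_qN_ne_zero N) hp (hasExp_genInf N x d)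

theorem PhiInf_X_one (x : XX N) :
    PhiInf N x (MvPolynomial.X (oneDiv N)) = qExpand Kbar N (jqModC Kbar) := by
  apply coeffMap_injective iota
  have h1 := hasExp_PhiInf N x (MvPolynomial.X (oneDiv N))
  rw [transl_X_one] at h1
  have h2 := hasExp_Jd N 1
  rw [Jd_one, qExpand_congr (mul_one N)] at h2
  exact HasExp.unique (tendsto_qN N) h1 h2

/-- At the trivial coset the expansion is the formal `q`-expansion. -/
theorem PhiInf_mk_one (P : MvPolynomial (N.divisors) Kbar) :
    PhiInf N (QuotientGroup.mk 1 : XX N) P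
      = qExpand Kbar N ((evF N P : FF N) : LaurentSeries Kbar) := by
  have key : PhiInf N (QuotientGroup.mk 1 : XX N)
      = (qExpand Kbar N).comp
          ((modularFunctionFieldBar N).val.toRingHom.comp (evF N).toRingHom) := by
    apply MvPolynomial.ringHom_ext
    · intro a
      rw [PhiInf_C]
      show _ = qExpand Kbar N ((evF N (MvPolynomial.C a) : FF N) : LaurentSeries Kbar)
      have : ((evF N (MvPolynomial.C a) : FF N) : LaurentSeries Kbar)
          = HahnSeries.C a := by
        rw [evF, MvPolynomial.aeval_C]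
        show algebraMap Kbar (LaurentSeries Kbar) a = _
        rw [algebraMap_laurentSeries_eq_single, HahnSeries.C_apply]
      rw [this, qExpand_C]
    · intro d
      rw [PhiInf_X]
      show _ = qExpand Kbar N ((evF N (MvPolynomial.X d) : FF N) : LaurentSeries Kbar)
      have h3 : ((evF N (MvPolynomial.X d) : FF N) : LaurentSeries Kbar)
          = ((jF N d : FF N) : LaurentSeries Kbar) := by
        rw [evF, MvPolynomial.aeval_X]
      rw [h3, coe_jF, qExpand_qExpand]
      apply coeffMap_injective iota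
      have h1 := hasExp_genInf N (QuotientGroup.mk 1 : XX N) d
      have h2 := hasExp_Jd N (d : ℕ)
      have heq : transl N (QuotientGroup.mk 1 : XX N) (MvPolynomial.X d) = Jd (d : ℕ) := by
        funext τ
        rw [transl_mk, inv_one, one_smul, Theta_X]
      rw [heq] at h1
      exact HasExp.unique (tendsto_qN N) h1 h2
  rw [key]
  rfl

/-- The action of `T` is the scaling `u ↦ ζ u` by a primitive `N`-th root of unity. -/
theorem exists_PhiInf_T_smul :
    ∃ ζ : Kbarˣ, IsPrimitiveRoot ζ N ∧ ∀ (x : XX N) (P : MvPolynomial (N.divisors) Kbar),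
      PhiInf N (ModularGroup.T • x) P = scaleHom ζ (PhiInf N x P) := by
  have hN : 0 < N := Nat.pos_of_ne_zero (NeZero.ne N)
  have hNC : (N : ℂ) ≠ 0 := by exact_mod_cast NeZero.ne N
  obtain ⟨ζ, -, hζ⟩ := exists_iota_eq_exp (N - 1) N hN
  have hcop : Nat.Coprime (N - 1) N :=
    (Nat.coprime_self_sub_left (m := 1) (n := N) hN).mpr (Nat.coprime_one_left N)
  have hprimC : IsPrimitiveRoot (iota (ζ : Kbar)) N := by
    rw [hζ]
    have := Complex.isPrimitiveRoot_exp_of_coprime (N - 1) N (NeZero.ne N) hcop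
    convert this using 2
    ring
  have hprim : IsPrimitiveRoot ζ N :=
    IsPrimitiveRoot.coe_units_iff.mp (hprimC.of_map_of_injective iota.injective)
  refine ⟨ζ, hprim, fun x P => ?_⟩
  apply coeffMap_injective iota
  rw [coeffMap_scaleHom]
  have h1 := hasExp_PhiInf N (ModularGroup.T • x) P
  have hζ' : ((Units.map (iota : Kbar →* ℂ) ζ : ℂˣ) : ℂ)
      = Complex.exp (2 * Real.pi * Complex.I * ((-1 : ℤ) : ℂ) / N) := by
    show iota (ζ : Kbar) = _
    rw [hζ]
    have hsub : ((N - 1 : ℕ) : ℂ) = (N : ℂ) - 1 := by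
      rw [Nat.cast_sub hN]; simp
    rw [hsub]
    have : 2 * Real.pi * Complex.I * ((N : ℂ) - 1) / N
        = 2 * Real.pi * Complex.I * ((-1 : ℤ) : ℂ) / N + 2 * Real.pi * Complex.I := by
      field_simp
      push_cast
      ring
    rw [this, Complex.exp_add, Complex.exp_two_pi_mul_I, mul_one]
  have h2 := HasExp.comp_T_zpow N (hasExp_PhiInf N x P) (-1) _ hζ'
  have heq : (fun τ => transl N x P (ModularGroup.T ^ (-1 : ℤ) • τ))
      = transl N (ModularGroup.T • x) P := by
    funext τ
    rw [transl_smul, zpow_neg_one]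
  rw [heq] at h2
  exact HasExp.unique (tendsto_qN N) h1 h2

theorem PhiInf_eq_zero_iff (x : XX N) (P : MvPolynomial (N.divisors) Kbar) :
    PhiInf N x P = 0 ↔ Theta N P = 0 := by
  rw [← transl_eq_zero_iff N x P]
  constructor
  · intro h
    have h1 := hasExp_PhiInf N x P
    rw [h, map_zero] at h1
    exact eq_zero_of_eventuallyEq_atImInfty (mdiff_transl N x P) h1.eventuallyEq_zero
  · intro h
    apply coeffMap_injective iota
    rw [map_zero]
    have h1 := hasExp_PhiInf N x P
    exact HasExp.eq_zero (tendsto_qN N) h1 (by rw [h])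

end Fermat.Agent.S24
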