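/-
S24 package AN-KER: `Θ(P) = 0 ↔ P(j_d) = 0` in the function field, and the field `F` is the
fraction field of the range of `evF`.  Uses Inf.lean (PhiInf_mk_one, PhiInf_eq_zero_iff).
(helper95; statements exactly as in the coordinator's skeleton.)
-/
import Fermat.Agent.S24.Inf

set_option autoImplicit false

open UpperHalfPlane ModularCurve CongruenceSubgroup
open scoped MatrixGroups

noncomputable section

namespace Fermat.Agent.S24

variable (N : ℕ) [NeZero N]

theorem Theta_eq_zero_iff (P : MvPolynomial (N.divisors) Kbar) : Theta N P = 0 ↔ evF N P = 0 := by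
  rw [← PhiInf_eq_zero_iff N (QuotientGroup.mk 1 : XX N) P, PhiInf_mk_one]
  constructor
  · intro h
    have h' : ((evF N P : FF N) : LaurentSeries Kbar) = 0 :=
      qExpand_injective (R := Kbar) N (h.trans (map_zero _).symm)
    exact Subtype.ext h'
  · intro h
    rw [h]
    simp

namespace H95

/-- `coeffEmb` maps rational constants to constants. -/
theorem coeffEmb_algebraMap (r : ℚ) :
    coeffEmb Kbar (algebraMap ℚ (LaurentSeries ℚ) r)
      = algebraMap Kbar (LaurentSeries Kbar) (algebraMap ℚ Kbar r) := by
  rw [algebraMap_laurentSeries_eq_single, algebraMap_laurentSeries_eq_single, coeffEmb,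
    coeffMap_single]

/-- The generators `j_d` as Laurent series. -/
theorem coe_jF_eq (N : ℕ) (d : N.divisors) :
    ((jF N d : FF N) : LaurentSeries Kbar) = coeffEmb Kbar (qExpand ℚ (d : ℕ) jq) := rfl

end H95

/-- `modularFunctionFieldBar N` is generated over `ℚ̄` by the `j_d`, `d ∣ N`. -/
theorem modularFunctionFieldBar_eq_adjoin :
    modularFunctionFieldBar N = IntermediateField.adjoin Kbar
      (Set.range fun d : N.divisors => ((jF N d : FF N) : LaurentSeries Kbar)) := by
  apply le_antisymm
  · have key : ∀ x ∈ IntermediateField.adjoin ℚ (divisorExpansions N),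
        coeffEmb Kbar x ∈ IntermediateField.adjoin Kbar
          (Set.range fun d : N.divisors => ((jF N d : FF N) : LaurentSeries Kbar)) := by
      intro x hx
      induction hx using IntermediateField.adjoin_induction with
      | mem y hy =>
        obtain ⟨d, hd0, hdN, rfl⟩ := hy
        refine IntermediateField.subset_adjoin Kbar _ ?_
        exact ⟨⟨d, Nat.mem_divisors.mpr ⟨hdN, NeZero.ne N⟩⟩, rfl⟩
      | algebraMap r =>
        rw [H95.coeffEmb_algebraMap]
        exact IntermediateField.algebraMap_mem _ _
      | add y z _ _ hy hz =>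
        rw [map_add]
        exact add_mem hy hz
      | inv y _ hy =>
        rw [map_inv₀]
        exact inv_mem hy
      | mul y z _ _ hy hz =>
        rw [map_mul]
        exact mul_mem hy hz
    show IntermediateField.adjoin Kbar
        (⇑(coeffEmb Kbar) '' (modularFunctionFieldFull N : Set (LaurentSeries ℚ))) ≤ _
    rw [IntermediateField.adjoin_le_iff]
    rintro _ ⟨x, hx, rfl⟩
    exact key x hx
  · rw [IntermediateField.adjoin_le_iff]
    rintro _ ⟨d, rfl⟩
    exact (jF N d).2

theorem evF_X_one : evF N (MvPolynomial.X (oneDiv N)) = jgen N := by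
  simp [evF, jgen]

theorem evF_frac (f : FF N) :
    ∃ P Q : MvPolynomial (N.divisors) Kbar, evF N Q ≠ 0 ∧ f = evF N P / evF N Q := by
  have hf : (f : LaurentSeries Kbar) ∈ IntermediateField.adjoin Kbar
      (Set.range fun d : N.divisors => ((jF N d : FF N) : LaurentSeries Kbar)) := by
    rw [← modularFunctionFieldBar_eq_adjoin]
    exact f.2
  rw [IntermediateField.mem_adjoin_iff_div] at hf
  obtain ⟨r, hr, s, hs, hfrs⟩ := hf
  rw [Algebra.adjoin_range_eq_range_aeval] at hr hs
  obtain ⟨P, rfl⟩ := hr
  obtain ⟨Q, rfl⟩ := hs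
  simp only [AlgHom.toRingHom_eq_coe, RingHom.coe_coe] at hfrs
  have hcoe : ∀ P : MvPolynomial (N.divisors) Kbar,
      ((evF N P : FF N) : LaurentSeries Kbar)
        = MvPolynomial.aeval (fun d : N.divisors => ((jF N d : FF N) : LaurentSeries Kbar)) P := by
    intro P
    simp [evF]
  by_cases hQ : evF N Q = 0
  · refine ⟨0, 1, by simp, ?_⟩
    have h0 : (f : LaurentSeries Kbar) = 0 := by
      rw [hfrs, ← hcoe Q, hQ]
      simp
    have : f = 0 := Subtype.ext h0
    rw [this]
    simp
  · refine ⟨P, Q, hQ, Subtype.ext ?_⟩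
    rw [hfrs, ← hcoe P, ← hcoe Q]
    rfl

end Fermat.Agent.S24
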