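/-
S24 package AN-SYM: the elementary symmetric functions of the translates are polynomials in `J`
with coefficients in `ℚ̄`.  Uses H6/PolyInJ.lean (exists_poly_of_invariant), Exp.lean
(HasExp.isBoundedAtImInfty, uniqueness), Inf.lean (hasExp_PhiInf), Transl.lean.
Statements FINAL.

Sketch: `E τ = esymm k (y ↦ transl N y P τ)` is holomorphic, `SL(2,ℤ)`-invariant
(`transl_smul` permutes the cosets), has the expansion `coeffMap iota (esymm k (y ↦ PhiInf N y P))`
at `i∞`, so `Δ^M E` is bounded: `E = R(J)`, `R : ℂ[X]`.  Then `R(qExpand ℂ N (jqModC ℂ))` is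
`coeffMap iota` of a series over `ℚ̄`; by triangularity (`coeff_jqModC_pow_self`,
`coeff_jqModC_pow_of_lt` of the Prelude) `R = r.map iota`.

The proofs are in H68/SymCore.lean (helper68), where the expansion toolkit is abstracted into
hypotheses; this file instantiates them with `HasExp atImInfty (qN N)`.
-/
import Fermat.Agent.S24.Inf
import Fermat.Agent.S24.H6.PolyInJ
import Fermat.Agent.S24.H68.SymCore

set_option autoImplicit false

open UpperHalfPlane ModularCurve CongruenceSubgroup
open scoped MatrixGroups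

noncomputable section

namespace Fermat.Agent.S24

variable (N : ℕ) [NeZero N]

/-- Rationality by triangularity. -/
theorem exists_map_iota_of_aeval (R : Polynomial ℂ) (L : LaurentSeries Kbar)
    (h : Polynomial.aeval (qExpand ℂ N (jqModC ℂ)) R = coeffMap iota L) :
    ∃ r : Polynomial Kbar, R = r.map iota :=
  H68.exists_map_iota_of_aeval N R L h

theorem exists_sym_poly [Fintype (XX N)] (P : MvPolynomial (N.divisors) Kbar) (k : ℕ) :
    ∃ r : Polynomial Kbar, ∀ τ : ℍ,
      Theta N (Polynomial.aeval (MvPolynomial.X (oneDiv N)) r) τ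
        = (Finset.univ.val.map fun y : XX N => transl N y P τ).esymm k := by
  have hu : ∀ᶠ τ in atImInfty, qN N τ ≠ 0 := Filter.Eventually.of_forall (qN_ne_zero N)
  have hJ : HasExp atImInfty (qN N) Jfun (qExpand ℂ N (jqModC ℂ)) := by
    have h := hasExp_PhiInf N (QuotientGroup.mk 1 : XX N) (MvPolynomial.X (oneDiv N))
    rwa [PhiInf_X_one, transl_X_one, H68.coeffMap_iota_qExpand_jqModC] at h
  refine H68.exists_sym_poly_core N (HasExp atImInfty (qN N)) (HasExp.const _ _)
    (fun f g L M hf hg => hf.add hg) (fun f g L M hf hg => HasExp.mul hu hf hg)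
    (fun f L M hf hg => HasExp.unique (tendsto_qN N) hf hg)
    (fun f L hf => ⟨(-L.order).toNat, HasExp.isBoundedAtImInfty N hf _ ?_⟩) hJ P
    (fun x => ⟨PhiInf N x P, hasExp_PhiInf N x P⟩) k
  have h1 : -L.order ≤ ((-L.order).toNat : ℤ) := Int.self_le_toNat _
  have h2 : ((-L.order).toNat : ℤ) ≤ ((N * (-L.order).toNat : ℕ) : ℤ) := by
    exact_mod_cast Nat.le_mul_of_pos_left _ (Nat.pos_of_ne_zero (NeZero.ne N))
  omega

end Fermat.Agent.S24
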