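/-
S24 package AN-TAYLOR: Taylor series at a point of the upper half plane (`taylorAt`, ModDefs.lean).
Statements FINAL (skeleton of helper83); proofs: helper64.
-/
import Fermat.Agent.S24.ModDefs

set_option autoImplicit false

open UpperHalfPlane Filter Topology
open scoped MatrixGroups Manifold

noncomputable section

namespace Fermat.Agent.S24

namespace TaylorAux

/-- A holomorphic function on `ℍ`, extended by `ofComplex`, is analytic at every point of `ℍ`. -/
theorem analyticAt {f : ℍ → ℂ} (hf : MDiff f) (τ : ℍ) :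
    AnalyticAt ℂ (f ∘ ofComplex) (τ : ℂ) :=
  (UpperHalfPlane.mdifferentiable_iff.mp hf).analyticAt
    (isOpen_upperHalfPlaneSet.mem_nhds τ.im_pos)

theorem coeff_taylorAt (τ₀ : ℍ) (f : ℍ → ℂ) (n : ℕ) :
    PowerSeries.coeff n (taylorAt τ₀ f) =
      iteratedDeriv n (f ∘ ofComplex) (τ₀ : ℂ) / (n.factorial : ℂ) := by
  simp [taylorAt]

/-- The determinant of the real matrix of an element of `SL(2, ℤ)`. -/
theorem det_coe (γ : SL(2, ℤ)) : ((γ : GL (Fin 2) ℝ)).val.det = 1 := by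
  have h := Matrix.SpecialLinearGroup.det_mapGL (S := ℝ) γ
  have h2 := congrArg Units.val h
  rw [Matrix.GeneralLinearGroup.val_det_apply] at h2
  exact h2

end TaylorAux

variable (τ₀ : ℍ) {f g : ℍ → ℂ}

theorem taylorAt_const (c : ℂ) : taylorAt τ₀ (fun _ => c) = PowerSeries.C c := by
  ext n
  rw [TaylorAux.coeff_taylorAt, PowerSeries.coeff_C]
  have e : ((fun _ => c) : ℍ → ℂ) ∘ ofComplex = fun _ => c := rfl
  rw [e]
  rcases n with _ | n
  · simp
  · simp [iteratedDeriv_const]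

theorem taylorAt_add (hf : MDiff f) (hg : MDiff g) :
    taylorAt τ₀ (f + g) = taylorAt τ₀ f + taylorAt τ₀ g := by
  ext n
  have hF := (TaylorAux.analyticAt hf τ₀).contDiffAt (n := n)
  have hG := (TaylorAux.analyticAt hg τ₀).contDiffAt (n := n)
  have e : (f + g) ∘ ofComplex = f ∘ ofComplex + g ∘ ofComplex := rfl
  simp only [map_add, TaylorAux.coeff_taylorAt, e, iteratedDeriv_add hF hG, add_div]

theorem taylorAt_mul (hf : MDiff f) (hg : MDiff g) :
    taylorAt τ₀ (f * g) = taylorAt τ₀ f * taylorAt τ₀ g := by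
  ext n
  have hF := (TaylorAux.analyticAt hf τ₀).contDiffAt (n := n)
  have hG := (TaylorAux.analyticAt hg τ₀).contDiffAt (n := n)
  have e : (f * g) ∘ ofComplex = (f ∘ ofComplex) * (g ∘ ofComplex) := rfl
  simp only [TaylorAux.coeff_taylorAt, e, iteratedDeriv_mul hF hG, PowerSeries.coeff_mul,
    Finset.Nat.sum_antidiagonal_eq_sum_range_succ_mk, Nat.succ_eq_add_one, Finset.sum_div]
  refine Finset.sum_congr rfl fun i hi => ?_
  rw [Nat.cast_choose _ (by grind)]
  field_simp [Nat.factorial_ne_zero]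

theorem coeff_zero_taylorAt (f : ℍ → ℂ) : PowerSeries.coeff 0 (taylorAt τ₀ f) = f τ₀ := by
  simp [TaylorAux.coeff_taylorAt, ofComplex_apply]

theorem order_taylorAt (hf : MDiff f) :
    (taylorAt τ₀ f).order = analyticOrderAt (f ∘ ofComplex) (τ₀ : ℂ) := by
  have hF := TaylorAux.analyticAt hf τ₀
  refine ENat.eq_of_forall_natCast_le_iff fun n => ?_
  rw [natCast_le_analyticOrderAt_iff_iteratedDeriv_eq_zero hF]
  constructor
  · intro h i hi
    have h0 : PowerSeries.coeff i (taylorAt τ₀ f) = 0 :=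
      PowerSeries.coeff_of_lt_order i (lt_of_lt_of_le (by exact_mod_cast hi) h)
    rw [TaylorAux.coeff_taylorAt, div_eq_zero_iff] at h0
    rcases h0 with h0 | h0
    · exact h0
    · exact absurd h0 (by exact_mod_cast Nat.factorial_ne_zero i)
  · intro h
    refine PowerSeries.nat_le_order _ _ fun i hi => ?_
    rw [TaylorAux.coeff_taylorAt, h i hi, zero_div]

/-- Identity theorem. -/
theorem taylorAt_eq_zero_iff (hf : MDiff f) : taylorAt τ₀ f = 0 ↔ f = 0 := by
  constructor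
  · intro h
    have h1 : analyticOrderAt (f ∘ ofComplex) (τ₀ : ℂ) = ⊤ := by
      rw [← order_taylorAt τ₀ hf, PowerSeries.order_eq_top]
      exact h
    rw [analyticOrderAt_eq_top] at h1
    have h2 : ∀ᶠ τ in 𝓝 τ₀, f τ = 0 := by
      have := UpperHalfPlane.continuous_coe.continuousAt.eventually h1
      filter_upwards [this] with τ hτ
      simpa [ofComplex_apply] using hτ
    exact UpperHalfPlane.eq_zero_of_frequently hf (τ := τ₀)
      (h2.filter_mono nhdsWithin_le_nhds).frequently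
  · intro h
    subst h
    have e : (0 : ℍ → ℂ) = fun _ => (0 : ℂ) := rfl
    rw [e, taylorAt_const, map_zero]

/-- The order of the Laurent series attached to a power series. -/
theorem order_ofPowerSeries {p : PowerSeries ℂ} (hp : p ≠ 0) :
    ((HahnSeries.ofPowerSeries ℤ ℂ p).order : ℤ) = (p.order.toNat : ℤ) := by
  have hq : HahnSeries.ofPowerSeries ℤ ℂ p ≠ 0 := by
    intro h
    exact hp (HahnSeries.ofPowerSeries_injective (by rw [h, map_zero]))
  apply le_antisymm
  · apply HahnSeries.order_le_of_coeff_ne_zero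
    rw [HahnSeries.ofPowerSeries_apply_coeff]
    exact PowerSeries.coeff_order hp
  · have h0 : (HahnSeries.ofPowerSeries ℤ ℂ p).coeff (HahnSeries.ofPowerSeries ℤ ℂ p).order ≠ 0 :=
      fun h => hq (HahnSeries.coeff_order_eq_zero.mp h)
    by_cases hr : (HahnSeries.ofPowerSeries ℤ ℂ p).order ∈ Set.range (Nat.cast : ℕ → ℤ)
    · obtain ⟨m, hm⟩ := hr
      rw [← hm] at h0 ⊢
      rw [HahnSeries.ofPowerSeries_apply_coeff] at h0
      have hle : p.order ≤ m := PowerSeries.order_le m h0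
      have : p.order.toNat ≤ m := ENat.toNat_le_of_le_natCast hle
      exact_mod_cast this
    · exfalso
      apply h0
      rw [HahnSeries.ofPowerSeries_apply]
      exact HahnSeries.embDomain_of_notMem_range hr

/-- Orders are invariant under the modular group. -/
theorem analyticOrderAt_comp_smul (hf : MDiff f) (γ : SL(2, ℤ)) :
    analyticOrderAt ((fun τ => f (γ • τ)) ∘ ofComplex) (τ₀ : ℂ) =
      analyticOrderAt (f ∘ ofComplex) ((γ • τ₀ : ℍ) : ℂ) := by
  have _ := hf
  have hdet : 0 < ((γ : GL (Fin 2) ℝ)).val.det := by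
    rw [TaylorAux.det_coe]; exact one_pos
  have e : ((fun τ => f (γ • τ)) ∘ ofComplex) =
      (f ∘ ofComplex) ∘ (fun z : ℂ => (((γ : GL (Fin 2) ℝ) • ofComplex z : ℍ) : ℂ)) := by
    funext z
    simp only [Function.comp_apply, ofComplex_apply]
    rfl
  rw [e, analyticOrderAt_comp_of_deriv_ne_zero (τ₀.analyticAt_smul hdet)
    (τ₀.deriv_smul_ne_zero hdet)]
  simp only [ofComplex_apply]
  rfl

/-- A germ invariant under an elliptic element whose multiplier is a primitive `s`-th root of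
unity has order divisible by `s`. -/
theorem dvd_analyticOrderAt_of_fixed (hf : MDiff f) (γ : SL(2, ℤ)) (hγ : γ • τ₀ = τ₀)
    (hinv : ∀ τ, f (γ • τ) = f τ) (s n : ℕ)
    (hs : IsPrimitiveRoot (denom (γ : GL (Fin 2) ℝ) τ₀ ^ 2) s)
    (hn : analyticOrderAt (f ∘ ofComplex) (τ₀ : ℂ) = n) : s ∣ n := by
  have hdet : ((γ : GL (Fin 2) ℝ)).val.det = 1 := TaylorAux.det_coe γ
  have hdet0 : 0 < ((γ : GL (Fin 2) ℝ)).val.det := by rw [hdet]; exact one_pos
  set m : ℂ → ℂ := fun z => (((γ : GL (Fin 2) ℝ) • ofComplex z : ℍ) : ℂ) with hm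
  have hmτ : m τ₀ = τ₀ := by
    simp only [hm, ofComplex_apply]
    exact congrArg _ hγ
  have hmd : HasDerivAt m ((((γ : GL (Fin 2) ℝ)).val.det : ℂ) / denom (γ : GL (Fin 2) ℝ) τ₀ ^ 2)
      (τ₀ : ℂ) := (hasStrictDerivAt_smul hdet0 τ₀).hasDerivAt
  have hF := TaylorAux.analyticAt hf τ₀
  obtain ⟨G, hGa, hG0, hFG⟩ := (hF.analyticOrderAt_eq_natCast).mp hn
  have hinvF : ∀ z, (f ∘ ofComplex) (m z) = (f ∘ ofComplex) z := by
    intro z
    simp only [hm, Function.comp_apply, ofComplex_apply]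
    exact hinv _
  have hmc : ContinuousAt m (τ₀ : ℂ) := hmd.continuousAt
  have hmt : Tendsto m (𝓝 (τ₀ : ℂ)) (𝓝 (τ₀ : ℂ)) := by
    have := hmc.tendsto
    rwa [hmτ] at this
  have h1 : ∀ᶠ z in 𝓝 (τ₀ : ℂ), (m z - τ₀) ^ n * G (m z) = (z - τ₀) ^ n * G z := by
    filter_upwards [hFG, hmt.eventually hFG] with z hz hz'
    rw [smul_eq_mul] at hz hz'
    rw [← hz', hinvF, hz]
  have hslope := hasDerivAt_iff_tendsto_slope.mp hmd
  have hGm : Tendsto (fun z => G (m z)) (𝓝[≠] (τ₀ : ℂ)) (𝓝 (G τ₀)) :=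
    (hGa.continuousAt.tendsto.comp hmt).mono_left nhdsWithin_le_nhds
  have hlim1 := (hslope.pow n).mul hGm
  have hlim2 : Tendsto (fun z => slope m (τ₀ : ℂ) z ^ n * G (m z)) (𝓝[≠] (τ₀ : ℂ)) (𝓝 (G τ₀)) := by
    refine (hGa.continuousAt.tendsto.mono_left nhdsWithin_le_nhds).congr' ?_
    filter_upwards [h1.filter_mono nhdsWithin_le_nhds, self_mem_nhdsWithin] with z hz hne
    have hne' : z - (τ₀ : ℂ) ≠ 0 := sub_ne_zero.mpr hne
    rw [slope_def_field, hmτ, div_pow, div_mul_eq_mul_div, hz, mul_div_assoc, mul_comm,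
      div_mul_cancel₀]
    exact pow_ne_zero n hne'
  have hEq := tendsto_nhds_unique hlim1 hlim2
  have hd : denom (γ : GL (Fin 2) ℝ) τ₀ ≠ 0 := denom_ne_zero _ τ₀
  have hpow : (denom (γ : GL (Fin 2) ℝ) τ₀ ^ 2) ^ n = 1 := by
    rw [hdet, Complex.ofReal_one] at hEq
    have h2 : (1 / denom (γ : GL (Fin 2) ℝ) τ₀ ^ 2) ^ n = 1 :=
      mul_right_cancel₀ hG0 (hEq.trans (one_mul _).symm)
    rw [one_div, inv_pow] at h2
    exact inv_eq_one.mp h2
  exact hs.dvd_of_pow_eq_one n hpow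

end Fermat.Agent.S24
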