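/-
S24 package AN-FIN: the local data at a finite center `c` (Taylor expansions at a point `τ_c`
with `J(τ_c) = c`).  Uses Taylor.lean, JFacts.lean, Transl.lean, Ker.lean, Sym.lean, Bridge.lean.
Statements FINAL (skeleton of helper83); proofs: helper49 (H49/LocalBuild.lean, H49/FinLocal.lean).

Sketch: `Φ x P := taylorAt τ_c (transl N x P)` is a ring hom with `Φ x P = 0 ↔ evF N P = 0`
(`taylorAt_eq_zero_iff`, `transl_eq_zero_iff`, `Theta_eq_zero_iff`); extend to `F` by
`exists_unique_extension`.  `φ_injective` from `transl_injective`; `order_π` from the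
`analyticOrderAt_Jfun_*` lemmas and `order_taylorAt`; `order_ρ` from `transl_smul` and
`analyticOrderAt_comp_smul` (`S • i = i`, `(S*T) • ρ = ρ`); `dvd_order` from
`dvd_analyticOrderAt_of_fixed` (if `ρ^k x = x` and `s ∤ k` then `ρ x = x` as `ρ^s = 1`);
`sym` from `exists_sym_poly`.  Statements about all `f : F` reduce to `f = evF P / evF Q`.
-/
import Fermat.Agent.S24.Defs
import Fermat.Agent.S24.Taylor
import Fermat.Agent.S24.Ker
import Fermat.Agent.S24.Sym
import Fermat.Agent.S24.Bridge
import Fermat.Agent.S24.H49.FinLocal
import Fermat.Agent.S20.H46.EigenCount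

set_option autoImplicit false

open UpperHalfPlane ModularCurve CongruenceSubgroup
open scoped MatrixGroups

noncomputable section

namespace Fermat.Agent.S24

open scoped Classical in
/-- A point of the upper half plane over the center `c`. -/
def centerPt (c : Kbar) : ℍ :=
  if c = 0 then ellRho else if c = 1728 then UpperHalfPlane.I
  else (Jfun_surjective (iota c)).choose

theorem Jfun_centerPt (c : Kbar) : Jfun (centerPt c) = iota c := by
  unfold centerPt
  split_ifs with h0 h1
  · rw [h0, map_zero]
    exact Jfun_rho
  · rw [h1, map_ofNat]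
    exact Jfun_I
  · exact (Jfun_surjective (iota c)).choose_spec

open scoped Classical in
/-- The local monodromy at the center `c`. -/
def centerPerm (N : ℕ) (c : Kbar) : Equiv.Perm (XX N) :=
  if c = 0 then MulAction.toPerm (ModularGroup.S * ModularGroup.T)
  else if c = 1728 then MulAction.toPerm ModularGroup.S else 1

theorem exists_localData_fin (N : ℕ) [NeZero N] [Fintype (XX N)] (c : Kbar) :
    ∃ L : LocalData Kbar (FF N) (XX N) (evF N).range (jgen N - algebraMap Kbar (FF N) c),
      L.ρ = centerPerm N c ∧
      ∀ (x : XX N) (P : MvPolynomial (N.divisors) Kbar),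
        L.φ x (evF N P) = HahnSeries.ofPowerSeries ℤ ℂ (taylorAt (centerPt c) (transl N x P)) := by
  by_cases h0 : c = 0
  · -- the elliptic point of order 3
    have hpt : centerPt c = ellRho := if_pos h0
    have hperm : centerPerm N c = MulAction.toPerm (ModularGroup.S * ModularGroup.T) := if_pos h0
    rw [hpt, hperm]
    refine H49.exists_localData_at N c ellRho (ModularGroup.S * ModularGroup.T) H64.ST_smul_rho 3
      (by norm_num) ?_ isPrimitiveRoot_denom_ST ?_
    · rw [h0, map_zero]
      simpa using analyticOrderAt_Jfun_rho
    · intro x k hk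
      exact H49.dvd_or_smul_eq_of_pow_smul (ModularGroup.S * ModularGroup.T) Nat.prime_three
        (Fermat.Agent.S20.H46.ST_cube_smul N) x k hk
  · by_cases h1 : c = 1728
    · -- the elliptic point of order 2
      have hpt : centerPt c = UpperHalfPlane.I := by
        unfold centerPt
        rw [if_neg h0, if_pos h1]
      have hperm : centerPerm N c = MulAction.toPerm ModularGroup.S := by
        unfold centerPerm
        rw [if_neg h0, if_pos h1]
      rw [hpt, hperm]
      refine H49.exists_localData_at N c UpperHalfPlane.I ModularGroup.S H64.S_smul_I 2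
        (by norm_num) ?_ isPrimitiveRoot_denom_S ?_
      · rw [h1, map_ofNat]
        exact_mod_cast analyticOrderAt_Jfun_I
      · intro x k hk
        exact H49.dvd_or_smul_eq_of_pow_smul ModularGroup.S Nat.prime_two
          (Fermat.Agent.S20.H46.S_sq_smul N) x k hk
    · -- a generic point
      have hperm : centerPerm N c = MulAction.toPerm (1 : SL(2, ℤ)) := by
        unfold centerPerm
        rw [if_neg h0, if_neg h1]
        ext x
        simp
      have hτ : Jfun (centerPt c) = iota c := Jfun_centerPt c
      have hJ0 : Jfun (centerPt c) ≠ 0 := by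
        rw [hτ]
        exact (map_ne_zero iota).mpr h0
      have hJ1 : Jfun (centerPt c) ≠ 1728 := by
        rw [hτ]
        intro h
        apply h1
        apply iota.injective
        rw [h, map_ofNat]
      rw [hperm]
      refine H49.exists_localData_at N c (centerPt c) 1 (one_smul _ _) 1 one_pos ?_ ?_
        (fun x k _ => Or.inl (one_dvd k))
      · rw [← hτ]
        exact_mod_cast analyticOrderAt_Jfun_generic (centerPt c) hJ0 hJ1
      · rw [IsPrimitiveRoot.one_right_iff]
        simp [denom]

end Fermat.Agent.S24
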