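/-
S24 package AN-INFC: the local data at infinity (expansions in `u = e^{2πiτ/N}`).
Uses Inf.lean, Ker.lean, Sym.lean, Bridge.lean, Exp.lean.  Statements FINAL.

Sketch: `Φ x := (coeffMap iota).comp (PhiInf N x)`, kernel = kernel of `evF`
(`PhiInf_eq_zero_iff`, `Theta_eq_zero_iff`); extend by `exists_unique_extension`.
`s = N`, `order_π`: `(φ x j).order = -N` by `PhiInf_X_one`; `ρ = toPerm T`;
`order_ρ`, `dvd_order` from `exists_PhiInf_T_smul` (`T^k x = x ⇒ L = scaleHom (ζ^k) L ⇒ N ∣ k * order`);
`φ_injective` from `transl_injective` + uniqueness of expansions; `sym` from `exists_sym_poly`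
(+ `HasExp` ring closure and uniqueness).

Proof written by helper59 (private helpers in `Fermat.Agent.S24.H59inf`).
-/
import Fermat.Agent.S24.Defs
import Fermat.Agent.S24.Ker
import Fermat.Agent.S24.Sym
import Fermat.Agent.S24.Bridge
import Fermat.Prelude.Thm_ModularCurve_coeff_jqModC_neg_one
import Fermat.Prelude.Thm_ModularCurve_coeff_jqModC_pow_of_lt

set_option autoImplicit false

open UpperHalfPlane ModularCurve CongruenceSubgroup Filter Topology
open scoped MatrixGroups Manifold

noncomputable section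

namespace Fermat.Agent.S24

namespace H59inf

/-! ### Generic helpers -/

/-- Identity theorem on the upper half plane, along `atImInfty`. -/
theorem eq_of_eventuallyEq_atImInfty {f g : ℍ → ℂ} (hf : MDiff f) (hg : MDiff g)
    (h : f =ᶠ[atImInfty] g) : f = g := by
  have hF : DifferentiableOn ℂ (f ∘ ofComplex) {z : ℂ | 0 < z.im} :=
    UpperHalfPlane.mdifferentiable_iff.mp hf
  have hG : DifferentiableOn ℂ (g ∘ ofComplex) {z : ℂ | 0 < z.im} :=
    UpperHalfPlane.mdifferentiable_iff.mp hg
  have hopen : IsOpen {z : ℂ | 0 < z.im} := isOpen_lt continuous_const Complex.continuous_im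
  have hconv : Convex ℝ {z : ℂ | 0 < z.im} := by
    intro x hx y hy a b ha hb hab
    simp only [Set.mem_ofPred_eq, Complex.add_im, Complex.smul_im, smul_eq_mul] at hx hy ⊢
    rcases eq_or_lt_of_le ha with rfl | ha'
    · have hb1 : b = 1 := by linarith
      subst hb1; simpa using hy
    · have h1 : 0 < a * x.im := mul_pos ha' hx
      have h2 : 0 ≤ b * y.im := mul_nonneg hb hy.le
      linarith
  have hpre : IsPreconnected {z : ℂ | 0 < z.im} := hconv.isPreconnected
  obtain ⟨A, hA⟩ := (UpperHalfPlane.atImInfty_mem _).mp h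
  set B : ℝ := max A 0 + 1 with hB
  have hBpos : 0 < B := by positivity
  have hBA : A < B := by
    have := le_max_left A 0
    linarith
  set z₀ : ℂ := (B + 1 : ℝ) * Complex.I with hz₀
  have hz₀im : z₀.im = B + 1 := by simp [hz₀]
  have hz₀mem : z₀ ∈ {z : ℂ | 0 < z.im} := by
    simp only [Set.mem_ofPred_eq, hz₀im]; linarith
  have hev : (f ∘ ofComplex) =ᶠ[𝓝 z₀] (g ∘ ofComplex) := by
    have hU : {z : ℂ | B < z.im} ∈ 𝓝 z₀ :=
      (isOpen_lt continuous_const Complex.continuous_im).mem_nhds
        (by simp only [Set.mem_ofPred_eq, hz₀im]; linarith)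
    filter_upwards [hU] with z hz
    have hz0 : 0 < z.im := lt_trans hBpos hz
    have hle : A ≤ (ofComplex z).im := by
      rw [UpperHalfPlane.ofComplex_apply_of_im_pos hz0]
      exact (lt_trans hBA hz).le
    exact hA (ofComplex z) hle
  have hEq : Set.EqOn (f ∘ ofComplex) (g ∘ ofComplex) {z : ℂ | 0 < z.im} :=
    (hF.analyticOnNhd hopen).eqOn_of_preconnected_of_eventuallyEq (hG.analyticOnNhd hopen)
      hpre hz₀mem hev
  funext τ
  have := hEq (show (τ : ℂ) ∈ {z : ℂ | 0 < z.im} from τ.im_pos)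
  simpa [UpperHalfPlane.ofComplex_apply] using this

/-- Two functions with the same expansion agree eventually. -/
theorem eventuallyEq_of_hasExp {𝔣 : Filter ℍ} {u f g : ℍ → ℂ} {L : LaurentSeries ℂ}
    (hf : HasExp 𝔣 u f L) (hg : HasExp 𝔣 u g L) : f =ᶠ[𝔣] g := by
  filter_upwards [hf, hg] with τ h1 h2
  exact h1.unique h2

theorem hasExp_finset_sum {𝔣 : Filter ℍ} {u : ℍ → ℂ} {ι : Type*} (s : Finset ι)
    (f : ι → ℍ → ℂ) (L : ι → LaurentSeries ℂ) (h : ∀ i ∈ s, HasExp 𝔣 u (f i) (L i)) :
    HasExp 𝔣 u (fun τ => ∑ i ∈ s, f i τ) (∑ i ∈ s, L i) := by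
  classical
  induction s using Finset.induction_on with
  | empty =>
    simpa using HasExp.const 𝔣 u 0
  | insert a s ha ih =>
    have h1 := h a (Finset.mem_insert_self a s)
    have h2 := ih fun i hi => h i (Finset.mem_insert_of_mem hi)
    have h3 := h1.add h2
    rw [Finset.sum_insert ha]
    refine h3.congr (Eventually.of_forall fun τ => ?_)
    simp [Finset.sum_insert ha]

theorem hasExp_finset_prod {𝔣 : Filter ℍ} {u : ℍ → ℂ} (hu : ∀ᶠ τ in 𝔣, u τ ≠ 0) {ι : Type*}
    (s : Finset ι) (f : ι → ℍ → ℂ) (L : ι → LaurentSeries ℂ)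
    (h : ∀ i ∈ s, HasExp 𝔣 u (f i) (L i)) :
    HasExp 𝔣 u (fun τ => ∏ i ∈ s, f i τ) (∏ i ∈ s, L i) := by
  classical
  induction s using Finset.induction_on with
  | empty =>
    simpa using HasExp.const 𝔣 u 1
  | insert a s ha ih =>
    have h1 := h a (Finset.mem_insert_self a s)
    have h2 := ih fun i hi => h i (Finset.mem_insert_of_mem hi)
    have h3 := HasExp.mul hu h1 h2
    rw [Finset.prod_insert ha]
    refine h3.congr (Eventually.of_forall fun τ => ?_)
    simp [Finset.prod_insert ha]

theorem hasExp_esymm {𝔣 : Filter ℍ} {u : ℍ → ℂ} (hu : ∀ᶠ τ in 𝔣, u τ ≠ 0) {ι : Type*}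
    [Fintype ι] (f : ι → ℍ → ℂ) (L : ι → LaurentSeries ℂ)
    (h : ∀ i, HasExp 𝔣 u (f i) (L i)) (k : ℕ) :
    HasExp 𝔣 u (fun τ => (Finset.univ.val.map fun y => f y τ).esymm k)
      ((Finset.univ.val.map L).esymm k) := by
  rw [Finset.esymm_map_val]
  have h1 := hasExp_finset_sum (𝔣 := 𝔣) (u := u) (Finset.powersetCard k (Finset.univ : Finset ι))
    (fun t τ => ∏ i ∈ t, f i τ) (fun t => ∏ i ∈ t, L i)
    (fun t _ => hasExp_finset_prod hu t f L fun i _ => h i)
  refine h1.congr (Eventually.of_forall fun τ => ?_)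
  simp only [Finset.esymm_map_val]

/-- Reindexing a multiset over a fintype along a permutation. -/
theorem map_univ_val_comp_equiv {ι β : Type*} [Fintype ι] (e : ι ≃ ι) (F : ι → β) :
    (Finset.univ.val.map fun y => F (e y)) = Finset.univ.val.map F := by
  have h1 : (Finset.univ.val.map fun y => F (e y)) = ((Finset.univ : Finset ι).val.map e).map F := by
    rw [Multiset.map_map]; rfl
  have h2 : ((Finset.univ : Finset ι).val.map e) = (Finset.univ : Finset ι).val := by
    have h3 := congrArg Finset.val (Finset.map_univ_equiv e)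
    rw [Finset.map_val] at h3
    exact h3
  rw [h1, h2]

theorem order_jqModC_Kbar : (jqModC Kbar).order = -1 := by
  have h1 : (jqModC Kbar).coeff (-1 : ℤ) = 1 := ModularCurve.coeff_jqModC_neg_one Kbar
  have hne : jqModC Kbar ≠ 0 := HahnSeries.ne_zero_of_coeff_ne_zero (by rw [h1]; exact one_ne_zero)
  apply le_antisymm
  · exact HahnSeries.order_le_of_coeff_ne_zero (by rw [h1]; exact one_ne_zero)
  · by_contra hlt
    push Not at hlt
    have h0 : (jqModC Kbar).coeff (jqModC Kbar).order = 0 := by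
      have := ModularCurve.coeff_jqModC_pow_of_lt Kbar (b := 1) (m := (jqModC Kbar).order)
        (by simpa using hlt)
      simpa using this
    exact hne (HahnSeries.coeff_order_eq_zero.mp h0)

theorem order_inv_laurent (L : LaurentSeries ℂ) : (L⁻¹).order = -L.order := by
  by_cases hL : L = 0
  · subst hL; simp
  · have h1 : L * L⁻¹ = 1 := mul_inv_cancel₀ hL
    have h2 := HahnSeries.order_mul hL (inv_ne_zero hL)
    rw [h1, HahnSeries.order_one] at h2
    linarith

theorem scaleHom_mul_apply {C : Type*} [Field C] (a b : Cˣ) (L : LaurentSeries C) :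
    scaleHom (a * b) L = scaleHom a (scaleHom b L) := by
  ext n
  simp [mul_zpow, mul_assoc]

/-! ### The embeddings at infinity -/

variable (N : ℕ) [NeZero N]

/-- The polynomial-level expansion over `ℂ`. -/
def PhiC (x : XX N) : MvPolynomial (N.divisors) Kbar →+* LaurentSeries ℂ :=
  (coeffMap iota).comp (PhiInf N x)

theorem PhiC_eq_zero_iff (x : XX N) (P : MvPolynomial (N.divisors) Kbar) :
    PhiC N x P = 0 ↔ evF N P = 0 := by
  rw [← Theta_eq_zero_iff, ← PhiInf_eq_zero_iff N x]
  constructor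
  · intro h
    apply coeffMap_injective iota
    rw [map_zero]
    exact h
  · intro h
    simp [PhiC, h]

theorem exists_phiInf (x : XX N) :
    ∃ φ : FF N →+* LaurentSeries ℂ, ∀ P, φ (evF N P) = PhiC N x P :=
  (exists_unique_extension (evF N) (evF_frac N) (PhiC N x) (PhiC_eq_zero_iff N x)).exists

/-- The embedding of the function field attached to the coset `x`. -/
def phiInf (x : XX N) : FF N →+* LaurentSeries ℂ := (exists_phiInf N x).choose

theorem phiInf_evF (x : XX N) (P : MvPolynomial (N.divisors) Kbar) :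
    phiInf N x (evF N P) = coeffMap iota (PhiInf N x P) :=
  (exists_phiInf N x).choose_spec P

theorem ringHom_ext_evF {L : Type*} [Field L] (f g : FF N →+* L)
    (h : ∀ P, f (evF N P) = g (evF N P)) : f = g := by
  ext a
  obtain ⟨P, Q, -, rfl⟩ := evF_frac N a
  rw [map_div₀, map_div₀, h, h]

theorem phiInf_algebraMap (x : XX N) (a : Kbar) :
    phiInf N x (algebraMap Kbar (FF N) a) = HahnSeries.C (iota a) := by
  have h : algebraMap Kbar (FF N) a = evF N (MvPolynomial.C a) := by
    rw [← MvPolynomial.algebraMap_eq, AlgHom.commutes]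
  rw [h, phiInf_evF, PhiInf_C]
  change coeffMap iota (HahnSeries.single 0 a) = HahnSeries.single 0 (iota a)
  rw [coeffMap_single]

theorem phiInf_jgen (x : XX N) :
    phiInf N x (jgen N) = coeffMap iota (qExpand Kbar N (jqModC Kbar)) := by
  rw [← evF_X_one, phiInf_evF, PhiInf_X_one]

theorem order_phiInf_jgen (x : XX N) : (phiInf N x (jgen N)).order = -(N : ℤ) := by
  rw [phiInf_jgen, order_coeffMap, order_qExpand, order_jqModC_Kbar]
  ring

theorem order_phiInf_pi (x : XX N) : (phiInf N x (jgen N)⁻¹).order = (N : ℤ) := by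
  rw [map_inv₀, order_inv_laurent, order_phiInf_jgen, neg_neg]

theorem phiInf_injective : Function.Injective (phiInf N) := by
  intro x y hxy
  apply transl_injective N
  have hx := hasExp_PhiInf N x (MvPolynomial.X (topDiv N))
  have hy := hasExp_PhiInf N y (MvPolynomial.X (topDiv N))
  rw [← phiInf_evF] at hx hy
  rw [hxy] at hx
  exact eq_of_eventuallyEq_atImInfty (mdiff_transl N x _) (mdiff_transl N y _)
    (eventuallyEq_of_hasExp hx hy)

/-! ### The monodromy `T` -/

section monodromy

variable {N}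
variable (ζ : Kbarˣ)
  (hT : ∀ (x : XX N) (P : MvPolynomial (N.divisors) Kbar),
      PhiInf N (ModularGroup.T • x) P = scaleHom ζ (PhiInf N x P))

include hT in
theorem phiInf_T_smul (x : XX N) :
    phiInf N (ModularGroup.T • x)
      = (scaleHom (Units.map (iota : Kbar →* ℂ) ζ)).comp (phiInf N x) := by
  apply ringHom_ext_evF
  intro P
  rw [phiInf_evF, hT, coeffMap_scaleHom, RingHom.comp_apply, phiInf_evF]

include hT in
theorem phiInf_T_smul_apply (x : XX N) (f : FF N) :
    phiInf N (ModularGroup.T • x) f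
      = scaleHom (Units.map (iota : Kbar →* ℂ) ζ) (phiInf N x f) := by
  rw [phiInf_T_smul ζ hT x]; rfl

include hT in
theorem phiInf_pow_T (k : ℕ) (x : XX N) (f : FF N) :
    phiInf N (((MulAction.toPerm ModularGroup.T : Equiv.Perm (XX N)) ^ k) x) f
      = scaleHom (Units.map (iota : Kbar →* ℂ) ζ ^ k) (phiInf N x f) := by
  induction k with
  | zero =>
    ext n
    simp
  | succ k ih =>
    rw [pow_succ', Equiv.Perm.mul_apply, MulAction.toPerm_apply, phiInf_T_smul_apply ζ hT, ih,
      pow_succ', scaleHom_mul_apply]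

include hT in
theorem dvd_order_phiInf (hζ : IsPrimitiveRoot ζ N) (x : XX N) (f : FF N) (k : ℕ)
    (hk : ((MulAction.toPerm ModularGroup.T : Equiv.Perm (XX N)) ^ k) x = x) :
    (N : ℤ) ∣ k * (phiInf N x f).order := by
  set L := phiInf N x f with hL
  by_cases h0 : L = 0
  · rw [h0]; simp
  have hζ' : IsPrimitiveRoot (Units.map (iota : Kbar →* ℂ) ζ) N :=
    hζ.map_of_injective (Units.map_injective (f := (iota : Kbar →* ℂ)) iota.injective)
  have h1 := phiInf_pow_T ζ hT k x f
  rw [hk] at h1
  have h2 := congrArg (fun M => M.coeff L.order) h1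
  simp only [scaleHom_coeff] at h2
  have hc : L.coeff L.order ≠ 0 := fun h => h0 (HahnSeries.coeff_order_eq_zero.mp h)
  have h3 : (((Units.map (iota : Kbar →* ℂ) ζ ^ k) ^ L.order : ℂˣ) : ℂ) = 1 := by
    have h4 : (((Units.map (iota : Kbar →* ℂ) ζ ^ k) ^ L.order : ℂˣ) : ℂ) * L.coeff L.order
        = 1 * L.coeff L.order := by
      rw [one_mul]; exact h2.symm
    exact mul_right_cancel₀ hc h4
  have h5 : (Units.map (iota : Kbar →* ℂ) ζ) ^ ((k : ℤ) * L.order) = 1 := by
    rw [zpow_mul, zpow_natCast]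
    exact Units.ext h3
  exact (hζ'.zpow_eq_one_iff_dvd _).mp h5

end monodromy

/-! ### Symmetric functions -/

theorem transl_sym_invariant [Fintype (XX N)] (P Q : MvPolynomial (N.divisors) Kbar) (k : ℕ)
    (hQ : ∀ τ : ℍ, Theta N Q τ = (Finset.univ.val.map fun y : XX N => transl N y P τ).esymm k)
    (x : XX N) (τ : ℍ) :
    transl N x Q τ = (Finset.univ.val.map fun y : XX N => transl N y P τ).esymm k := by
  have h1 : transl N x Q τ = Theta N Q ((Quotient.out x : SL(2, ℤ))⁻¹ • τ) := rfl
  rw [h1, hQ]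
  have h2 : (fun y : XX N => transl N y P ((Quotient.out x : SL(2, ℤ))⁻¹ • τ))
      = fun y : XX N => transl N ((MulAction.toPerm (Quotient.out x : SL(2, ℤ))) y) P τ := by
    funext y
    rw [MulAction.toPerm_apply, transl_smul]
  rw [h2]
  exact congrArg (fun m => Multiset.esymm m k)
    (map_univ_val_comp_equiv (MulAction.toPerm (Quotient.out x : SL(2, ℤ)))
      (fun y : XX N => transl N y P τ))

theorem phiInf_sym [Fintype (XX N)] (P : MvPolynomial (N.divisors) Kbar) (k : ℕ) :
    ∃ ε ∈ IntermediateField.adjoin Kbar {(jgen N)⁻¹}, ∀ x : XX N,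
      phiInf N x ε = (Finset.univ.val.map fun y : XX N => phiInf N y (evF N P)).esymm k := by
  obtain ⟨r, hr⟩ := exists_sym_poly N P k
  set Q : MvPolynomial (N.divisors) Kbar := Polynomial.aeval (MvPolynomial.X (oneDiv N)) r with hQ
  have hεQ : evF N Q = Polynomial.aeval (jgen N) r := by
    rw [hQ, ← Polynomial.aeval_algHom_apply, evF_X_one]
  refine ⟨evF N Q, ?_, fun x => ?_⟩
  · rw [hεQ]
    have hj : jgen N ∈ IntermediateField.adjoin Kbar {(jgen N)⁻¹} := by
      have h := (IntermediateField.adjoin Kbar {(jgen N)⁻¹}).inv_mem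
        (IntermediateField.subset_adjoin Kbar {(jgen N)⁻¹} (Set.mem_singleton _))
      rwa [inv_inv] at h
    have h1 := Polynomial.aeval_subalgebra_coe r
      (IntermediateField.adjoin Kbar {(jgen N)⁻¹}).toSubalgebra ⟨jgen N, hj⟩
    have h2 : Polynomial.aeval (jgen N) r
        ∈ (IntermediateField.adjoin Kbar {(jgen N)⁻¹}).toSubalgebra := by
      rw [← h1]; exact SetLike.coe_mem _
    exact h2
  · rw [phiInf_evF]
    have hu : ∀ᶠ τ in atImInfty, qN N τ ≠ 0 := Eventually.of_forall fun τ => qN_ne_zero N τ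
    have hA := hasExp_PhiInf N x Q
    have hB := hasExp_esymm hu (fun y : XX N => transl N y P)
      (fun y : XX N => coeffMap iota (PhiInf N y P)) (fun y => hasExp_PhiInf N y P) k
    have hfun : transl N x Q
        = fun τ => (Finset.univ.val.map fun y : XX N => transl N y P τ).esymm k := by
      funext τ
      exact transl_sym_invariant N P Q k hr x τ
    rw [hfun] at hA
    have hU := HasExp.unique (tendsto_qN N) hA hB
    rw [hU]
    congr 2
    funext y
    rw [phiInf_evF]

end H59inf

open H59inf in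
theorem exists_localData_inf (N : ℕ) [NeZero N] [Fintype (XX N)] :
    ∃ L : LocalData Kbar (FF N) (XX N) (evF N).range (jgen N)⁻¹,
      L.ρ = MulAction.toPerm ModularGroup.T ∧
      ∀ (x : XX N) (P : MvPolynomial (N.divisors) Kbar),
        L.φ x (evF N P) = coeffMap iota (PhiInf N x P) := by
  obtain ⟨ζ, hζ, hT⟩ := exists_PhiInf_T_smul N
  refine ⟨{
    ι := iota
    φ := phiInf N
    φ_algebraMap := fun x a => phiInf_algebraMap N x a
    φ_π := fun x y => by
      rw [map_inv₀, map_inv₀, phiInf_jgen, phiInf_jgen]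
    φ_injective := phiInf_injective N
    s := N
    s_pos := Nat.pos_of_ne_zero (NeZero.ne N)
    order_π := fun x => order_phiInf_pi N x
    ρ := MulAction.toPerm ModularGroup.T
    order_ρ := fun x f => by
      rw [MulAction.toPerm_apply, phiInf_T_smul_apply ζ hT, order_scaleHom]
    dvd_order := fun x f k hk => dvd_order_phiInf ζ hT hζ x f k hk
    sym := fun a ha k => by
      obtain ⟨P, rfl⟩ := ha
      exact phiInf_sym N P k }, rfl, fun x P => phiInf_evF N x P⟩

end Fermat.Agent.S24
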