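/-
S24 package AN-GLOBAL: the global data of the modular function field.
Uses FinCenter.lean, InfCenter.lean, Sym.lean (norm = esymm of top degree).
-/
import Fermat.Agent.S24.FinCenter
import Fermat.Agent.S24.InfCenter

set_option autoImplicit false

open UpperHalfPlane ModularCurve CongruenceSubgroup Filter
open scoped MatrixGroups Manifold

noncomputable section

namespace Fermat.Agent.S24

namespace H83

variable (N : ℕ) [NeZero N]

/-- The top elementary symmetric function is the product. -/
theorem esymm_card_eq_prod {R : Type*} [CommSemiring R] {X : Type*} [Fintype X] (f : X → R) :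
    (Finset.univ.val.map f).esymm (Fintype.card X) = ∏ y, f y := by
  rw [Finset.esymm_map_val, ← Finset.card_univ, Finset.powersetCard_self, Finset.sum_singleton]

/-- The translate of the norm polynomial is the product of all translates. -/
theorem transl_norm_eq_prod [Fintype (XX N)] (P : MvPolynomial (N.divisors) Kbar)
    (r : Polynomial Kbar)
    (hr : ∀ τ : ℍ, Theta N (Polynomial.aeval (MvPolynomial.X (oneDiv N)) r) τ
      = (Finset.univ.val.map fun y : XX N => transl N y P τ).esymm (Fintype.card (XX N)))
    (x : XX N) :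
    transl N x (Polynomial.aeval (MvPolynomial.X (oneDiv N)) r) = ∏ y : XX N, transl N y P := by
  funext τ
  rw [Finset.prod_apply]
  show Theta N _ ((Quotient.out x : SL(2, ℤ))⁻¹ • τ) = _
  rw [hr, esymm_card_eq_prod]
  set g : SL(2, ℤ) := Quotient.out x
  have h : ∀ y : XX N, transl N y P (g⁻¹ • τ) = transl N (g • y) P τ := fun y =>
    (transl_smul N g y P τ).symm
  simp_rw [h]
  exact Fintype.prod_equiv (MulAction.toPerm g) _ _ (fun y => rfl)

theorem taylorAt_prod (τ₀ : ℍ) {ι : Type*} (s : Finset ι) (f : ι → ℍ → ℂ)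
    (hf : ∀ i ∈ s, MDiff (f i)) :
    taylorAt τ₀ (∏ i ∈ s, f i) = ∏ i ∈ s, taylorAt τ₀ (f i) ∧ MDiff (∏ i ∈ s, f i) := by
  classical
  induction s using Finset.induction_on with
  | empty =>
    refine ⟨?_, ?_⟩
    · simp only [Finset.prod_empty]
      have := taylorAt_const τ₀ 1
      rw [map_one] at this
      exact this
    · simp only [Finset.prod_empty]
      exact mdifferentiable_const
  | insert a s ha ih =>
    have hs : ∀ i ∈ s, MDiff (f i) := fun i hi => hf i (Finset.mem_insert_of_mem hi)
    obtain ⟨ih1, ih2⟩ := ih hs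
    have ha' : MDiff (f a) := hf a (Finset.mem_insert_self a s)
    refine ⟨?_, ?_⟩
    · rw [Finset.prod_insert ha, Finset.prod_insert ha, taylorAt_mul τ₀ ha' ih2, ih1]
    · rw [Finset.prod_insert ha]
      exact ha'.mul ih2

theorem hasExp_prod {𝔣 : Filter ℍ} {u : ℍ → ℂ} (hu : ∀ᶠ τ in 𝔣, u τ ≠ 0) {ι : Type*}
    (s : Finset ι) (f : ι → ℍ → ℂ) (L : ι → LaurentSeries ℂ)
    (h : ∀ i ∈ s, HasExp 𝔣 u (f i) (L i)) :
    HasExp 𝔣 u (∏ i ∈ s, f i) (∏ i ∈ s, L i) := by
  classical
  induction s using Finset.induction_on with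
  | empty =>
    simp only [Finset.prod_empty]
    have := HasExp.const 𝔣 u 1
    rw [map_one] at this
    exact this
  | insert a s ha ih =>
    rw [Finset.prod_insert ha, Finset.prod_insert ha]
    exact HasExp.mul hu (h a (Finset.mem_insert_self a s))
      (ih fun i hi => h i (Finset.mem_insert_of_mem hi))

end H83

open H83 in
theorem exists_modularGlobalData (N : ℕ) [NeZero N] [Fintype (XX N)] :
    ∃ G : GlobalData Kbar (FF N) (XX N) (jgen N),
      (∀ c, (G.fin c).ρ = centerPerm N c) ∧ G.inf.ρ = MulAction.toPerm ModularGroup.T := by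
  classical
  have hfin := fun c => (exists_localData_fin N c).choose_spec
  have hinf := (exists_localData_inf N).choose_spec
  refine ⟨{ R := (evF N).range
            frac := ?_
            fin := fun c => (exists_localData_fin N c).choose
            inf := (exists_localData_inf N).choose
            norm := ?_ }, fun c => (hfin c).1, hinf.1⟩
  · intro f
    obtain ⟨P, Q, hQ, hf⟩ := evF_frac N f
    exact ⟨evF N P, ⟨P, rfl⟩, evF N Q, ⟨Q, rfl⟩, hQ, hf⟩
  · rintro a ⟨P, rfl⟩ -
    obtain ⟨r, hr⟩ := exists_sym_poly N P (Fintype.card (XX N))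
    have hev : Polynomial.aeval (jgen N) r
        = evF N (Polynomial.aeval (MvPolynomial.X (oneDiv N)) r) := by
      rw [← evF_X_one N, Polynomial.aeval_algHom_apply]
    have hev' : Polynomial.aeval (jgen N) r
        = (evF N).toRingHom (Polynomial.aeval (MvPolynomial.X (oneDiv N)) r) := hev
    refine ⟨r, fun c x => ?_, fun x => ?_⟩
    · rw [hev', AlgHom.toRingHom_eq_coe, RingHom.coe_coe, (hfin c).2 x,
        transl_norm_eq_prod N P r hr x,
        (taylorAt_prod (centerPt c) Finset.univ (fun y => transl N y P)
          (fun y _ => mdiff_transl N y P)).1, map_prod]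
      exact Finset.prod_congr rfl fun y _ => ((hfin c).2 y P).symm
    · rw [hev', AlgHom.toRingHom_eq_coe, RingHom.coe_coe, hinf.2 x]
      have h1 : HasExp atImInfty (qN N)
          (transl N x (Polynomial.aeval (MvPolynomial.X (oneDiv N)) r))
          (coeffMap iota (PhiInf N x (Polynomial.aeval (MvPolynomial.X (oneDiv N)) r))) :=
        hasExp_PhiInf N x _
      have h2 : HasExp atImInfty (qN N) (∏ y : XX N, transl N y P)
          (∏ y : XX N, coeffMap iota (PhiInf N y P)) :=
        hasExp_prod (Eventually.of_forall fun τ => qN_ne_zero N τ) Finset.univ _ _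
          (fun y _ => hasExp_PhiInf N y P)
      rw [transl_norm_eq_prod N P r hr x] at h1
      rw [HasExp.unique (tendsto_qN N) h1 h2]
      exact Finset.prod_congr rfl fun y _ => (hinf.2 y P).symm

end Fermat.Agent.S24
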