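/-
S24 package A4 (Newton): every place over the center is induced by one of the embeddings.

Proof (helper34): put `e = v.ord π`, `s = L.s`, and `Λ_x a = (φ x a).order * e - s * v.ord a`.
* (`H34.addVal_mul_eq_of_mem_adjoin`) on `K(π)` the two valuations are proportional;
* (`H34.newton_exists_order_mul_eq`) for `a ∈ R`, `a ≠ 0` some `x` has `Λ_x a = 0`: the element
  `g = a ^ e * π ^ (-v.ord a)` is a `v`-unit whose conjugates have symmetric functions in `K(π)`,
  so some conjugate is a unit for the order valuation of Laurent series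
  (`H34.exists_valuation_eq_one_of_sym`, the Newton polygon argument);
* one `x` works for all `a ∈ R` (hence all `f = a / b`): if every `x` had a bad `a_x`, a product
  `∏ a_x ^ n_x` with suitable `n_x : ℕ` is bad for all `x` simultaneously (each `Λ_x` is additive).
-/
import Fermat.Agent.S24.Defs
import Fermat.Agent.S24.H52.AddVal
import Fermat.Agent.S24.H34.PlacesOfSym
import Fermat.Agent.S24.H34.NewtonMixed

set_option autoImplicit false

open AlgebraicCurve

noncomputable section

namespace Fermat.Agent.S24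

namespace H34

open H52 Polynomial

variable {K F : Type*} [Field K] [Field F] [Algebra K F]

/-- Strict ultrametric inequality for additive valuations. -/
theorem addVal_add_eq_of_lt {o : F → ℤ} (ho : IsAddVal o) {f g : F} (hf : f ≠ 0) (hg : g ≠ 0)
    (h : o f < o g) : f + g ≠ 0 ∧ o (f + g) = o f := by
  have hne : f + g ≠ 0 := by
    intro h0
    have h1 : g = -f := by linear_combination h0
    rw [h1, ho.map_neg f hf] at h
    exact lt_irrefl _ h
  refine ⟨hne, le_antisymm ?_ ?_⟩
  · have h1 := ho.map_add (f := f + g) (g := -g) hne (neg_ne_zero.mpr hg) (by simpa using hf)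
    rw [ho.map_neg g hg] at h1
    have h2 : f + g + -g = f := by ring
    rw [h2] at h1
    by_contra hcon
    push Not at hcon
    have h3 := lt_min hcon h
    omega
  · have h1 := ho.map_add hf hg hne
    rw [min_eq_left h.le] at h1
    exact h1

/-- Polynomials in an element of positive valuation are integral for an additive valuation
which is trivial on the constants. -/
theorem addVal_aeval_mem {o : F → ℤ} (ho : IsAddVal o)
    (hK : ∀ c : K, c ≠ 0 → o (algebraMap K F c) = 0) {π : F} (hπ : 0 < o π) (q : K[X]) :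
    aeval π q ∈ ho.valuationSubring := by
  induction q using Polynomial.induction_on' with
  | add p q hp hq => rw [map_add]; exact add_mem hp hq
  | monomial n a =>
    rw [Polynomial.aeval_monomial]
    refine mul_mem ?_ (pow_mem (Or.inr hπ.le) n)
    by_cases ha : a = 0
    · left; simp [ha]
    · right; rw [hK a ha]

/-- A polynomial with nonzero constant term, evaluated at an element of positive valuation, is a
unit. -/
theorem addVal_aeval_of_coeff_zero_ne {o : F → ℤ} (ho : IsAddVal o)
    (hK : ∀ c : K, c ≠ 0 → o (algebraMap K F c) = 0) {π : F} (hπ0 : π ≠ 0) (hπ : 0 < o π)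
    (q : K[X]) (hq : q.coeff 0 ≠ 0) : aeval π q ≠ 0 ∧ o (aeval π q) = 0 := by
  have hdec : aeval π q = algebraMap K F (q.coeff 0) + aeval π q.divX * π := by
    conv_lhs => rw [← Polynomial.divX_mul_X_add q]
    simp [add_comm]
  have hc0 : algebraMap K F (q.coeff 0) ≠ 0 := (map_ne_zero (algebraMap K F)).mpr hq
  have hc : o (algebraMap K F (q.coeff 0)) = 0 := hK _ hq
  by_cases hr : aeval π q.divX = 0
  · rw [hdec, hr, zero_mul, add_zero]
    exact ⟨hc0, hc⟩
  · have hmem := (ho.mem_valuationSubring_iff_of_ne hr).mp (addVal_aeval_mem ho hK hπ q.divX)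
    have hlt : o (algebraMap K F (q.coeff 0)) < o (aeval π q.divX * π) := by
      rw [hc, ho.map_mul hr hπ0]
      omega
    have := addVal_add_eq_of_lt ho hc0 (mul_ne_zero hr hπ0) hlt
    rw [hdec]
    exact ⟨this.1, this.2.trans hc⟩

/-- The valuation of a polynomial in an element of positive valuation (for an additive valuation
which is trivial on the constants). -/
theorem addVal_aeval {o : F → ℤ} (ho : IsAddVal o)
    (hK : ∀ c : K, c ≠ 0 → o (algebraMap K F c) = 0) {π : F} (hπ0 : π ≠ 0) (hπ : 0 < o π)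
    (p : K[X]) (hp : p ≠ 0) :
    aeval π p ≠ 0 ∧ o (aeval π p) = (p.rootMultiplicity 0 : ℤ) * o π := by
  obtain ⟨q, hpq, hq⟩ := Polynomial.exists_eq_pow_rootMultiplicity_mul_and_not_dvd p hp 0
  rw [map_zero, sub_zero, Polynomial.X_dvd_iff] at hq
  obtain ⟨hq0, hqo⟩ := addVal_aeval_of_coeff_zero_ne ho hK hπ0 hπ q hq
  have hdec : aeval π p = π ^ p.rootMultiplicity 0 * aeval π q := by
    conv_lhs => rw [hpq]
    simp
  rw [hdec]
  refine ⟨mul_ne_zero (pow_ne_zero _ hπ0) hq0, ?_⟩
  rw [ho.map_mul (pow_ne_zero _ hπ0) hq0, ho.map_pow hπ0, hqo, add_zero]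

/-- Two additive valuations which are trivial on `K` and positive at `π` are proportional on
`K(π)`. -/
theorem addVal_mul_eq_of_mem_adjoin {o o' : F → ℤ} (ho : IsAddVal o) (ho' : IsAddVal o')
    (hK : ∀ c : K, c ≠ 0 → o (algebraMap K F c) = 0)
    (hK' : ∀ c : K, c ≠ 0 → o' (algebraMap K F c) = 0)
    {π : F} (hπ0 : π ≠ 0) (hπ : 0 < o π) (hπ' : 0 < o' π) {t : F}
    (ht : t ∈ IntermediateField.adjoin K {π}) (ht0 : t ≠ 0) :
    o t * o' π = o π * o' t := by
  obtain ⟨p, q, rfl⟩ := (IntermediateField.mem_adjoin_simple_iff K t).mp ht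
  have hq0 : aeval π q ≠ 0 := by
    intro h0
    rw [h0, div_zero] at ht0
    exact ht0 rfl
  have hp0 : aeval π p ≠ 0 := by
    intro h0
    rw [h0, zero_div] at ht0
    exact ht0 rfl
  have hq : q ≠ 0 := by
    rintro rfl
    simp at hq0
  have hp : p ≠ 0 := by
    rintro rfl
    simp at hp0
  rw [ho.map_div hp0 hq0, ho'.map_div hp0 hq0, (addVal_aeval ho hK hπ0 hπ p hp).2,
    (addVal_aeval ho hK hπ0 hπ q hq).2, (addVal_aeval ho' hK' hπ0 hπ' p hp).2,
    (addVal_aeval ho' hK' hπ0 hπ' q hq).2]
  ring

/-- `Place.ord` is trivial on nonzero constants. -/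
theorem place_ord_algebraMap (v : Place K F) (c : K) :
    v.ord (algebraMap K F c) = 0 := by
  have h1 := ord_nonneg_of_mem v (v.algebraMap_mem' c)
  have h2 := ord_nonneg_of_mem v (v.algebraMap_mem' c⁻¹)
  rw [map_inv₀, v.ord_inv] at h2
  omega

/-- The valuation subring of Laurent series of nonnegative order. -/
def laurentSubring : ValuationSubring (LaurentSeries ℂ) :=
  (isAddVal_order (RingHom.id (LaurentSeries ℂ))).valuationSubring

theorem mem_laurentSubring_iff (y : LaurentSeries ℂ) :
    y ∈ laurentSubring ↔ y = 0 ∨ 0 ≤ y.order := Iff.rfl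

theorem order_eq_zero_of_laurent_valuation_eq_one {y : LaurentSeries ℂ}
    (hy : laurentSubring.valuation y = 1) : y.order = 0 := by
  have hy0 : y ≠ 0 := by
    rintro rfl
    simp at hy
  have h1 : y ∈ laurentSubring := by
    rw [← ValuationSubring.valuation_le_one_iff, hy]
  have h2 : y⁻¹ ∈ laurentSubring := by
    rw [← ValuationSubring.valuation_le_one_iff, map_inv₀, hy, inv_one]
  have h3 := ((mem_laurentSubring_iff y).mp h1).resolve_left hy0
  have h4 := ((mem_laurentSubring_iff y⁻¹).mp h2).resolve_left (inv_ne_zero hy0)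
  have h5 := (isAddVal_order (RingHom.id (LaurentSeries ℂ))).map_inv hy0
  simp only [RingHom.id_apply] at h5
  omega

variable {X : Type*} [Fintype X] {R : Subalgebra K F} {π : F}

/-- The order valuation attached to an embedding of the local data is trivial on constants. -/
theorem newton_order_algebraMap (L : LocalData K F X R π) (x : X) (c : K) :
    (L.φ x (algebraMap K F c)).order = 0 := by
  rw [L.φ_algebraMap]
  exact HahnSeries.order_C

/-- Newton polygon step: for every nonzero `a ∈ R`, some embedding computes `v.ord a`. -/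
theorem newton_exists_order_mul_eq [Nonempty X] (L : LocalData K F X R π)
    (v : Place K F) (hv : 0 < v.ord π) {a : F} (haR : a ∈ R) (ha0 : a ≠ 0) :
    ∃ x, (L.φ x a).order * v.ord π = L.s * v.ord a := by
  classical
  obtain ⟨x₀⟩ := ‹Nonempty X›
  have hπ0 : π ≠ 0 := by
    rintro rfl
    rw [v.ord_zero] at hv
    exact lt_irrefl _ hv
  set e : ℤ := v.ord π with he
  set w : ℤ := v.ord a with hw
  obtain ⟨n, hn⟩ : ∃ n : ℕ, (n : ℤ) = e := ⟨e.toNat, Int.toNat_of_nonneg hv.le⟩
  set g : F := a ^ n * π ^ (-w) with hg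
  have hg0 : g ≠ 0 := mul_ne_zero (pow_ne_zero _ ha0) (zpow_ne_zero _ hπ0)
  have hordg : v.ord g = 0 := by
    rw [hg, v.ord_mul (pow_ne_zero _ ha0) (zpow_ne_zero _ hπ0), (isAddVal_ord v).map_pow ha0,
      v.ord_zpow, ← hw, ← he, hn]
    ring
  have hgA : v.toValuationSubring.valuation g = 1 := by
    have h1 : g ∈ v.toValuationSubring := by
      rw [H52.mem_iff_ord_nonneg v hg0, hordg]
    have h2 : g⁻¹ ∈ v.toValuationSubring := by
      rw [H52.mem_iff_ord_nonneg v (inv_ne_zero hg0), v.ord_inv, hordg, neg_zero]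
    rw [← ValuationSubring.valuation_le_one_iff] at h1 h2
    rw [map_inv₀] at h2
    refine le_antisymm h1 ?_
    have hpos : 0 < v.toValuationSubring.valuation g :=
      zero_lt_iff.mpr ((Valuation.ne_zero_iff _).mpr hg0)
    exact (inv_le_one₀ hpos).mp h2
  -- the hypotheses of the Newton polygon lemma
  have hA : ∀ t ∈ (IntermediateField.adjoin K {π}).toSubfield, t ∈ v.toValuationSubring →
      laurentSubring.valuation (L.φ x₀ t) ≤ 1 := by
    intro t ht htA
    rw [ValuationSubring.valuation_le_one_iff, mem_laurentSubring_iff]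
    by_cases ht0 : t = 0
    · left; rw [ht0, map_zero]
    right
    have h1 := addVal_mul_eq_of_mem_adjoin (isAddVal_order (L.φ x₀)) (isAddVal_ord v)
      (fun c _ => newton_order_algebraMap L x₀ c) (fun c _ => place_ord_algebraMap v c) hπ0
      (by rw [L.order_π]; exact_mod_cast L.s_pos) hv
      ((IntermediateField.mem_toSubfield _ _).mp ht) ht0
    rw [L.order_π] at h1
    have h2 : 0 ≤ v.ord t := ord_nonneg_of_mem v htA
    have h3 : (0 : ℤ) < L.s := by exact_mod_cast L.s_pos
    have h4 : 0 ≤ (L.φ x₀ t).order * v.ord π := by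
      rw [h1]; positivity
    exact nonneg_of_mul_nonneg_left h4 hv
  have hsym : ∀ k : ℕ, ∃ r ∈ (IntermediateField.adjoin K {π}).toSubfield,
      L.φ x₀ r = (Finset.univ.val.map fun x => L.φ x g).esymm k := by
    intro k
    obtain ⟨ε, hε, hεx⟩ := L.sym (a ^ n) (pow_mem haR n) k
    have hπmem : π ∈ IntermediateField.adjoin K {π} := IntermediateField.mem_adjoin_simple_self K π
    refine ⟨(π ^ (-w)) ^ k * ε, ?_, ?_⟩
    · rw [IntermediateField.mem_toSubfield]
      exact mul_mem (pow_mem (zpow_mem hπmem _) k) hε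
    · have h1 : (fun x => L.φ x g) = fun x => L.φ x₀ (π ^ (-w)) * L.φ x (a ^ n) := by
        funext x
        rw [hg, map_mul, mul_comm, map_zpow₀, map_zpow₀, L.φ_π x x₀]
      rw [h1, esymm_map_mul, map_mul, map_pow, hεx x₀]
  obtain ⟨x, hx⟩ := exists_valuation_eq_one_of_sym laurentSubring.valuation L.φ
    (IntermediateField.adjoin K {π}).toSubfield x₀ v.toValuationSubring hA g hgA hsym
  refine ⟨x, ?_⟩
  have h1 := order_eq_zero_of_laurent_valuation_eq_one hx
  have ho := isAddVal_order (L.φ x)
  have h2 : (L.φ x g).order = (n : ℤ) * (L.φ x a).order + (-w) * (L.s : ℤ) := by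
    have := ho.map_mul (pow_ne_zero n ha0) (zpow_ne_zero (-w) hπ0)
    rw [ho.map_pow ha0, ho.map_zpow hπ0] at this
    simp only [L.order_π] at this
    rw [hg]
    exact this
  rw [h1, hn] at h2
  linear_combination -h2

end H34

variable {K F X : Type*} [Field K] [Field F] [Algebra K F] [Fintype X]
  {R : Subalgebra K F} {π : F}

open H34 H52 in
theorem LocalData.exists_rel_of_place [Nonempty X] (L : LocalData K F X R π)
    (hR : ∀ f : F, ∃ a ∈ R, ∃ b ∈ R, b ≠ 0 ∧ f = a / b)
    (v : Place K F) (hv : 0 < v.ord π) : ∃ x, L.Rel v x := by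
  classical
  by_contra hcon
  push Not at hcon
  -- the defect of `x` at `c`
  set Λ : X → F → ℤ := fun x c => (L.φ x c).order * v.ord π - L.s * v.ord c with hΛ
  have hΛmul : ∀ x (c d : F), c ≠ 0 → d ≠ 0 → Λ x (c * d) = Λ x c + Λ x d := by
    intro x c d hc hd
    simp only [hΛ]
    rw [(isAddVal_order (L.φ x)).map_mul hc hd, v.ord_mul hc hd]
    ring
  have hΛpow : ∀ x (c : F) (k : ℕ), c ≠ 0 → Λ x (c ^ k) = k * Λ x c := by
    intro x c k hc
    simp only [hΛ]
    rw [(isAddVal_order (L.φ x)).map_pow hc, (isAddVal_ord v).map_pow hc]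
    ring
  -- every `x` has a bad element of `R`
  have hbad : ∀ x, ∃ a ∈ R, a ≠ 0 ∧ Λ x a ≠ 0 := by
    intro x
    by_contra hx
    push Not at hx
    apply hcon x
    intro f
    by_cases hf0 : f = 0
    · rw [hf0, map_zero, HahnSeries.order_zero, v.ord_zero]; ring
    obtain ⟨a, haR, b, hbR, hb0, rfl⟩ := hR f
    have ha0 : a ≠ 0 := by
      rintro rfl
      exact hf0 (zero_div b)
    have h1 := hx a haR ha0
    have h2 := hx b hbR hb0
    simp only [hΛ] at h1 h2
    rw [(isAddVal_order (L.φ x)).map_div ha0 hb0, (isAddVal_ord v).map_div ha0 hb0]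
    linear_combination h1 - h2
  choose a haR ha0 hbad using hbad
  -- a single element of `R` which is bad for all `x`
  have hall : ∀ t : Finset X, ∃ c ∈ R, c ≠ 0 ∧ ∀ x ∈ t, Λ x c ≠ 0 := by
    intro t
    induction t using Finset.induction_on with
    | empty => exact ⟨1, one_mem R, one_ne_zero, by simp⟩
    | insert i t hi ih =>
      obtain ⟨c, hcR, hc0, hc⟩ := ih
      obtain ⟨k, hk⟩ := exists_nat_forall_mul_add_ne_zero (insert i t) (fun x => Λ x c)
        (fun x => Λ x (a i)) (fun x hx => by
          rcases Finset.mem_insert.mp hx with rfl | hx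
          · exact Or.inr (hbad x)
          · exact Or.inl (hc x hx))
      refine ⟨c ^ k * a i, mul_mem (pow_mem hcR k) (haR i),
        mul_ne_zero (pow_ne_zero _ hc0) (ha0 i), fun x hx => ?_⟩
      rw [hΛmul x _ _ (pow_ne_zero _ hc0) (ha0 i), hΛpow x c k hc0]
      exact hk x hx
  obtain ⟨c, hcR, hc0, hc⟩ := hall Finset.univ
  obtain ⟨x, hx⟩ := newton_exists_order_mul_eq L v hv hcR hc0
  apply hc x (Finset.mem_univ x)
  simp only [hΛ]
  rw [hx]; ring

end Fermat.Agent.S24
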