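/-
S24 package A1 (Ord): basic valuation toolkit for `Place.ord` and for the order of Laurent series.
Statements are FINAL; add further private helper lemmas in namespace `Fermat.Agent.S24.Hxx`.
(Proved by helper52 from `H52/AddVal.lean`, `H52/AddValMore.lean`.)
-/
import Fermat.Agent.S24.Defs
import Fermat.Agent.S24.H52.AddValMore

set_option autoImplicit false

open AlgebraicCurve

noncomputable section

namespace Fermat.Agent.S24

variable {K F : Type*} [Field K] [Field F] [Algebra K F]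

section PlaceOrd

variable (v : Place K F)

theorem ord_algebraMap {a : K} (ha : a ≠ 0) : v.ord (algebraMap K F a) = 0 := by
  have h0 : algebraMap K F a ≠ 0 := by simpa using ha
  have h1 := H52.ord_nonneg_of_mem v (v.algebraMap_mem' a)
  have h2 := H52.ord_nonneg_of_mem v (v.algebraMap_mem' a⁻¹)
  rw [map_inv₀, v.ord_inv] at h2
  omega

theorem mem_iff_ord_nonneg {f : F} (hf : f ≠ 0) : f ∈ v.toValuationSubring ↔ 0 ≤ v.ord f :=
  H52.mem_iff_ord_nonneg v hf

theorem ord_pow (f : F) (n : ℕ) : v.ord (f ^ n) = n * v.ord f := by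
  have := v.ord_zpow f (n : ℤ)
  simpa using this

theorem ord_div {f g : F} (hf : f ≠ 0) (hg : g ≠ 0) : v.ord (f / g) = v.ord f - v.ord g :=
  (H52.isAddVal_ord v).map_div hf hg

theorem ord_neg (f : F) : v.ord (-f) = v.ord f := by
  by_cases hf : f = 0
  · simp [hf]
  · exact (H52.isAddVal_ord v).map_neg f hf

theorem ord_prod {ι : Type*} (s : Finset ι) (f : ι → F) (hf : ∀ i ∈ s, f i ≠ 0) :
    v.ord (∏ i ∈ s, f i) = ∑ i ∈ s, v.ord (f i) :=
  (H52.isAddVal_ord v).map_prod s f hf

theorem ord_add_ge {f g : F} (hf : f ≠ 0) (hg : g ≠ 0) (hfg : f + g ≠ 0) :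
    min (v.ord f) (v.ord g) ≤ v.ord (f + g) :=
  (H52.isAddVal_ord v).map_add hf hg hfg

theorem ord_add_eq_of_lt {f g : F} (hf : f ≠ 0) (h : g = 0 ∨ v.ord f < v.ord g) :
    f + g ≠ 0 ∧ v.ord (f + g) = v.ord f :=
  (H52.isAddVal_ord v).map_add_eq_of_lt hf h

/-- If all nonzero terms of a finite sum are `≥ m` then so is the sum (if nonzero). -/
theorem ord_sum_ge {ι : Type*} (s : Finset ι) (f : ι → F) (m : ℤ)
    (h : ∀ i ∈ s, f i ≠ 0 → m ≤ v.ord (f i)) (hs : ∑ i ∈ s, f i ≠ 0) :
    m ≤ v.ord (∑ i ∈ s, f i) :=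
  (H52.isAddVal_ord v).map_sum_ge s f m h hs

/-- A finite sum with a unique term of minimal order is nonzero, of that order. -/
theorem ord_sum_of_unique_min {ι : Type*} (s : Finset ι) (f : ι → F) {i₀ : ι} (hi₀ : i₀ ∈ s)
    (h0 : f i₀ ≠ 0) (h : ∀ i ∈ s, i ≠ i₀ → f i = 0 ∨ v.ord (f i₀) < v.ord (f i)) :
    ∑ i ∈ s, f i ≠ 0 ∧ v.ord (∑ i ∈ s, f i) = v.ord (f i₀) :=
  (H52.isAddVal_ord v).map_sum_of_unique_min s f hi₀ h0 h

theorem exists_ord_eq_one : ∃ t : F, v.ord t = 1 := by
  obtain ⟨π, hπ⟩ := IsDiscreteValuationRing.exists_irreducible v.toValuationSubring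
  exact ⟨π, v.ord_coe_irreducible hπ⟩

/-- The uniformiser hidden in `Place.dCoord`. -/
theorem exists_dCoord_eq : ∃ t : F, v.ord t = 1 ∧ v.dCoord = KaehlerDifferential.D K F t :=
  ⟨((IsDiscreteValuationRing.exists_irreducible v.toValuationSubring).choose : F),
    v.ord_coe_irreducible (IsDiscreteValuationRing.exists_irreducible v.toValuationSubring).choose_spec,
    rfl⟩

/-- A place is determined by the sign of its `ord`. -/
theorem place_ext_of_ord {v w : Place K F}
    (h : ∀ f : F, f ≠ 0 → (0 ≤ v.ord f ↔ 0 ≤ w.ord f)) : v = w := by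
  apply Place.ext
  ext f
  by_cases hf : f = 0
  · subst hf
    exact ⟨fun _ => w.toValuationSubring.zero_mem, fun _ => v.toValuationSubring.zero_mem⟩
  · rw [H52.mem_iff_ord_nonneg v hf, H52.mem_iff_ord_nonneg w hf]
    exact h f hf

end PlaceOrd

section LaurentOrd

/-- The order of Laurent series is an additive valuation. -/
theorem H52.isAddVal_lorder : H52.IsAddVal (fun x : LaurentSeries ℂ => x.order) := by
  have := H52.isAddVal_order (RingHom.id (LaurentSeries ℂ))
  simpa using this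

/-- (this is `HahnSeries.order_mul`, restated for convenience) -/
theorem lorder_mul {x y : LaurentSeries ℂ} (hx : x ≠ 0) (hy : y ≠ 0) :
    (x * y).order = x.order + y.order :=
  HahnSeries.order_mul hx hy

theorem lorder_pow (x : LaurentSeries ℂ) (n : ℕ) : (x ^ n).order = n * x.order := by
  rw [HahnSeries.order_pow, nsmul_eq_mul]

theorem lorder_inv (x : LaurentSeries ℂ) : (x⁻¹).order = -x.order := by
  by_cases hx : x = 0
  · simp [hx]
  · exact H52.isAddVal_lorder.map_inv hx

theorem lorder_neg (x : LaurentSeries ℂ) : (-x).order = x.order :=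
  HahnSeries.order_neg

theorem lorder_C {a : ℂ} : (HahnSeries.C a : LaurentSeries ℂ).order = 0 :=
  HahnSeries.order_C

theorem lorder_prod {ι : Type*} (s : Finset ι) (f : ι → LaurentSeries ℂ) (hf : ∀ i ∈ s, f i ≠ 0) :
    (∏ i ∈ s, f i).order = ∑ i ∈ s, (f i).order :=
  H52.isAddVal_lorder.map_prod s f hf

theorem lorder_add_ge {x y : LaurentSeries ℂ} (hxy : x + y ≠ 0) :
    min x.order y.order ≤ (x + y).order :=
  HahnSeries.min_order_le_order_add hxy

theorem lorder_add_eq_of_lt {x y : LaurentSeries ℂ} (hx : x ≠ 0) (h : y = 0 ∨ x.order < y.order) :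
    x + y ≠ 0 ∧ (x + y).order = x.order :=
  H52.isAddVal_lorder.map_add_eq_of_lt hx h

theorem lorder_sum_ge {ι : Type*} (s : Finset ι) (f : ι → LaurentSeries ℂ) (m : ℤ)
    (h : ∀ i ∈ s, f i ≠ 0 → m ≤ (f i).order) (hs : ∑ i ∈ s, f i ≠ 0) :
    m ≤ (∑ i ∈ s, f i).order :=
  H52.isAddVal_lorder.map_sum_ge s f m h hs

theorem lorder_sum_of_unique_min {ι : Type*} (s : Finset ι) (f : ι → LaurentSeries ℂ) {i₀ : ι}
    (hi₀ : i₀ ∈ s) (h0 : f i₀ ≠ 0)
    (h : ∀ i ∈ s, i ≠ i₀ → f i = 0 ∨ (f i₀).order < (f i).order) :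
    ∑ i ∈ s, f i ≠ 0 ∧ (∑ i ∈ s, f i).order = (f i₀).order :=
  H52.isAddVal_lorder.map_sum_of_unique_min s f hi₀ h0 h

/-- `x = C (leading coeff) * z^order + (higher order)`. -/
theorem lorder_sub_leading {x : LaurentSeries ℂ} (hx : x ≠ 0) :
    x - HahnSeries.single x.order x.leadingCoeff = 0 ∨
      x.order < (x - HahnSeries.single x.order x.leadingCoeff).order := by
  by_cases hy : x - HahnSeries.single x.order x.leadingCoeff = 0
  · exact Or.inl hy
  right
  by_contra hcon
  have hle : (x - HahnSeries.single x.order x.leadingCoeff).order ≤ x.order := not_lt.mp hcon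
  have hne := HahnSeries.coeff_order_eq_zero.not.mpr hy
  apply hne
  rcases hle.lt_or_eq with hlt | heq
  · rw [HahnSeries.coeff_sub, HahnSeries.coeff_eq_zero_of_lt_order hlt,
      HahnSeries.coeff_single_of_ne hlt.ne, sub_zero]
  · rw [heq, HahnSeries.coeff_sub, HahnSeries.coeff_single_same, HahnSeries.leadingCoeff_eq,
      sub_self]

end LaurentOrd

section LocalOrd

variable {X : Type*} [Fintype X] {R : Subalgebra K F} {π : F}

theorem LocalData.φ_ne_zero (L : LocalData K F X R π) (x : X) {f : F} (hf : f ≠ 0) :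
    L.φ x f ≠ 0 :=
  (map_ne_zero (L.φ x)).mpr hf

theorem LocalData.π_ne_zero [Nonempty X] (L : LocalData K F X R π) : π ≠ 0 := by
  obtain ⟨x⟩ := ‹Nonempty X›
  rintro rfl
  have h := L.order_π x
  rw [map_zero, HahnSeries.order_zero] at h
  have := L.s_pos
  omega

/-- The order of the embedded constants is `0`. -/
theorem H52.localData_order_algebraMap (L : LocalData K F X R π) (x : X) (a : K) :
    (L.φ x (algebraMap K F a)).order = 0 := by
  rw [L.φ_algebraMap]; exact HahnSeries.order_C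

/-- Elements of `K(π)` have the same order (up to the factor `s / e`) in every embedding and at
every place over the center. -/
theorem LocalData.rel_of_mem_adjoin (L : LocalData K F X R π) (v : Place K F) (hv : 0 < v.ord π)
    (x : X) {ε : F} (hε : ε ∈ IntermediateField.adjoin K {π}) :
    (L.φ x ε).order * v.ord π = L.s * v.ord ε := by
  have hπ0 : π ≠ 0 := by
    rintro rfl
    simp at hv
  obtain ⟨r, q, rfl⟩ := (IntermediateField.mem_adjoin_simple_iff K ε).mp hε
  have hsπ : (0 : ℤ) < (L.φ x π).order := by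
    rw [L.order_π x]; exact_mod_cast L.s_pos
  by_cases hr : r = 0
  · simp [hr]
  by_cases hq : q = 0
  · simp [hq]
  have ho := H52.isAddVal_order (L.φ x)
  have hv' := H52.isAddVal_ord v
  obtain ⟨hr1, hr2⟩ := ho.map_aeval (K := K)
    (fun a _ => H52.localData_order_algebraMap L x a) hsπ hπ0 hr
  obtain ⟨hq1, hq2⟩ := ho.map_aeval (K := K)
    (fun a _ => H52.localData_order_algebraMap L x a) hsπ hπ0 hq
  obtain ⟨_, hr4⟩ := hv'.map_aeval (K := K)
    (fun a ha => ord_algebraMap v (by rintro rfl; simp at ha)) hv hπ0 hr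
  obtain ⟨_, hq4⟩ := hv'.map_aeval (K := K)
    (fun a ha => ord_algebraMap v (by rintro rfl; simp at ha)) hv hπ0 hq
  rw [ho.map_div hr1 hq1, hv'.map_div hr1 hq1, hr2, hq2, hr4, hq4, L.order_π x]
  ring

/-- For a polynomial `p` over `K`: the order of `φ x (p(π))` is `s` times the multiplicity of the
root `0` of `p`. -/
theorem LocalData.order_aeval (L : LocalData K F X R π) (x : X) {p : Polynomial K} (hp : p ≠ 0) :
    L.φ x (Polynomial.aeval π p) ≠ 0 ∧
      (L.φ x (Polynomial.aeval π p)).order = L.s * (p.rootMultiplicity 0 : ℤ) := by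
  have hsπ : (0 : ℤ) < (L.φ x π).order := by
    rw [L.order_π x]; exact_mod_cast L.s_pos
  have hπ0 : π ≠ 0 := by
    rintro rfl
    rw [map_zero, HahnSeries.order_zero] at hsπ
    exact lt_irrefl _ hsπ
  obtain ⟨h1, h2⟩ := (H52.isAddVal_order (L.φ x)).map_aeval (K := K)
    (fun a _ => H52.localData_order_algebraMap L x a) hsπ hπ0 hp
  refine ⟨(map_ne_zero (L.φ x)).mpr h1, ?_⟩
  rw [h2, L.order_π x]; ring

end LocalOrd

end Fermat.Agent.S24
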