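/-
S24 package A5 (PlaceOf): every embedding induces a place over the center, and only one.

`{f | f = 0 ∨ 0 ≤ (φ x f).order}` is a valuation subring of `F` containing `K`, not `⊤` (it does
not contain `π⁻¹`), and a PID because the value group `{(φ x f).order}` is a nonzero subgroup
`e'ℤ` of `ℤ`; then `v.ord f * e' = (φ x f).order`.
(Proved by helper52 from `H52/AddVal.lean`.)
-/
import Fermat.Agent.S24.Ord

set_option autoImplicit false

open AlgebraicCurve

noncomputable section

namespace Fermat.Agent.S24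

variable {K F X : Type*} [Field K] [Field F] [Algebra K F] [Fintype X]
  {R : Subalgebra K F} {π : F}

theorem LocalData.exists_place_rel (L : LocalData K F X R π) (x : X) :
    ∃ v : Place K F, 0 < v.ord π ∧ L.Rel v x := by
  have hs : (0 : ℤ) < L.s := by exact_mod_cast L.s_pos
  have hsπ : (L.φ x π).order = L.s := L.order_π x
  have hπ0 : π ≠ 0 := by
    rintro rfl
    rw [map_zero, HahnSeries.order_zero] at hsπ
    omega
  have ho := H52.isAddVal_order (L.φ x)
  have hK : ∀ a : K, algebraMap K F a ≠ 0 → 0 ≤ (L.φ x (algebraMap K F a)).order :=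
    fun a _ => (H52.localData_order_algebraMap L x a).ge
  have hneg : ∃ f : F, f ≠ 0 ∧ (L.φ x f).order < 0 :=
    ⟨π⁻¹, inv_ne_zero hπ0, by
      have := ho.map_inv hπ0
      rw [this, hsπ]; omega⟩
  obtain ⟨e, he, hord⟩ := H52.exists_laurentPlace_ord_eq (L.φ x) hK hneg
  set v := H52.laurentPlace (L.φ x) hK hneg
  have hπ' : (L.s : ℤ) = e * v.ord π := by rw [← hsπ]; exact hord π hπ0
  have hvπ : 0 < v.ord π := by
    by_contra hcon
    have : e * v.ord π ≤ 0 := mul_nonpos_of_nonneg_of_nonpos he.le (not_lt.mp hcon)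
    omega
  refine ⟨v, hvπ, fun f => ?_⟩
  by_cases hf : f = 0
  · subst hf; simp
  · rw [hord f hf, hπ']; ring

theorem LocalData.rel_unique (L : LocalData K F X R π) {v v' : Place K F} (hv : 0 < v.ord π)
    (hv' : 0 < v'.ord π) {x : X} (h : L.Rel v x) (h' : L.Rel v' x) : v = v' := by
  have hs : (0 : ℤ) < L.s := by exact_mod_cast L.s_pos
  apply place_ext_of_ord
  intro f _
  have h1 := h f
  have h2 := h' f
  constructor
  · intro hf
    by_contra hcon
    have hneg : v'.ord f < 0 := not_le.mp hcon
    have h3 : (L.φ x f).order * v'.ord π < 0 := by rw [h2]; exact mul_neg_of_pos_of_neg hs hneg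
    have h4 : 0 ≤ (L.φ x f).order * v.ord π := by rw [h1]; exact mul_nonneg hs.le hf
    have h5 : (L.φ x f).order < 0 := by
      by_contra h6
      exact absurd h3 (not_lt.mpr (mul_nonneg (not_lt.mp h6) hv'.le))
    exact absurd h4 (not_le.mpr (mul_neg_of_neg_of_pos h5 hv))
  · intro hf
    by_contra hcon
    have hneg : v.ord f < 0 := not_le.mp hcon
    have h3 : (L.φ x f).order * v.ord π < 0 := by rw [h1]; exact mul_neg_of_pos_of_neg hs hneg
    have h4 : 0 ≤ (L.φ x f).order * v'.ord π := by rw [h2]; exact mul_nonneg hs.le hf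
    have h5 : (L.φ x f).order < 0 := by
      by_contra h6
      exact absurd h3 (not_lt.mpr (mul_nonneg (not_lt.mp h6) hv.le))
    exact absurd h4 (not_le.mpr (mul_neg_of_neg_of_pos h5 hv'))

end Fermat.Agent.S24
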