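/-
S24 package A9 (LocalSum): the places over a center are in bijection with the `ρ`-orbits;
counting consequences.  Uses A4 (Newton), A5 (PlaceOf), A7 (Fiber).
Proof: `Fermat.Agent.S24.H69.Upstream` (helper69), instantiated with the upstream theorems.
-/
import Fermat.Agent.S24.Newton
import Fermat.Agent.S24.PlaceOf
import Fermat.Agent.S24.Fiber
import Fermat.Agent.S24.H69.LocalSum

set_option autoImplicit false

open AlgebraicCurve

noncomputable section

namespace Fermat.Agent.S24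

variable {K F X : Type*} [Field K] [Field F] [Algebra K F] [Fintype X]
  {R : Subalgebra K F} {π : F}

/-- The upstream statements (A4, A5, A7), bundled. -/
theorem LocalData.upstream [IsAlgClosed K] [Nonempty X] (L : LocalData K F X R π)
    (hR : ∀ f : F, ∃ a ∈ R, ∃ b ∈ R, b ≠ 0 ∧ f = a / b) : H69.Upstream L where
  exists_rel_of_place v hv := L.exists_rel_of_place hR v hv
  exists_place_rel x := L.exists_place_rel x
  rel_unique _ _ hv hv' _ h h' := L.rel_unique hv hv' h h'
  rel_iff_orbit v hv _ hx y := L.rel_iff_orbit hR v hv hx y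
  ord_π_eq_minimalPeriod v hv _ hx := L.ord_π_eq_minimalPeriod hR v hv hx

theorem LocalData.finite_places [IsAlgClosed K] [Nonempty X] (L : LocalData K F X R π)
    (hR : ∀ f : F, ∃ a ∈ R, ∃ b ∈ R, b ≠ 0 ∧ f = a / b) :
    {v : Place K F | 0 < v.ord π}.Finite :=
  (L.upstream hR).finite_places

theorem LocalData.card_places [IsAlgClosed K] [Nonempty X] (L : LocalData K F X R π)
    (hR : ∀ f : F, ∃ a ∈ R, ∃ b ∈ R, b ≠ 0 ∧ f = a / b) :
    (L.finite_places hR).toFinset.card = orbCount L.ρ :=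
  (L.upstream hR).card_places _

theorem LocalData.sum_ord_π [IsAlgClosed K] [Nonempty X] (L : LocalData K F X R π)
    (hR : ∀ f : F, ∃ a ∈ R, ∃ b ∈ R, b ≠ 0 ∧ f = a / b) :
    ∑ v ∈ (L.finite_places hR).toFinset, v.ord π = (Fintype.card X : ℤ) :=
  (L.upstream hR).sum_ord_π _

theorem LocalData.sum_ord [IsAlgClosed K] [Nonempty X] (L : LocalData K F X R π)
    (hR : ∀ f : F, ∃ a ∈ R, ∃ b ∈ R, b ≠ 0 ∧ f = a / b) {f : F} (hf : f ≠ 0) :
    (L.s : ℤ) * ∑ v ∈ (L.finite_places hR).toFinset, v.ord f = (∏ y, L.φ y f).order :=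
  (L.upstream hR).sum_ord _ hf

/-- If the monodromy is trivial, the center is unramified. -/
theorem LocalData.ord_π_eq_one_of_ρ_eq_one [IsAlgClosed K] [Nonempty X] (L : LocalData K F X R π)
    (hR : ∀ f : F, ∃ a ∈ R, ∃ b ∈ R, b ≠ 0 ∧ f = a / b) (hρ : L.ρ = 1)
    (v : Place K F) (hv : 0 < v.ord π) : v.ord π = 1 :=
  (L.upstream hR).ord_π_eq_one_of_ρ_eq_one hρ v hv

end Fermat.Agent.S24
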