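/-
S24 package A8 (Kaehler): differentials.  `Ω[F/K] = F · dπ`, `dπ ≠ 0`, and the order of `g • dπ`
at a place over the center is `v.ord g + v.ord π - 1`.

Proofs: `Fermat/Agent/S24/H9/{LaurentDeriv,Diff,Kaehler,KaehlerLocal}.lean` (helper9).
(1) `Ω[F/K] = F · D t` for `F` algebraic over `K(t)` in characteristic zero (minimal polynomials
are separable).  (2) The derivative of Laurent series is a derivation lowering nonzero orders by
exactly one; `f ↦ ∂ (φ x f)` is a `K`-derivation, hence factors through `Ω[F/K]`.  (3) With the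
uniformiser `t` hidden in `v.dCoord = D t`: `D t = c • D π`, compare orders.
-/
import Fermat.Agent.S24.Ord
import Fermat.Agent.S24.Algebraic
import Fermat.Agent.S24.H9.KaehlerLocal

set_option autoImplicit false

open AlgebraicCurve KaehlerDifferential

noncomputable section

namespace Fermat.Agent.S24

variable {K F X : Type*} [Field K] [Field F] [Algebra K F] [Fintype X]
  {R : Subalgebra K F} {π : F}

theorem exists_smul_D_eq [CharZero K] (t : F)
    [Algebra.IsAlgebraic (IntermediateField.adjoin K {t}) F] (ω : Ω[F⁄K]) :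
    ∃ g : F, ω = g • KaehlerDifferential.D K F t :=
  H9.exists_smul_D_eq_of_isAlgebraic t inferInstance ω

theorem LocalData.D_ne_zero [Nonempty X] (L : LocalData K F X R π) :
    KaehlerDifferential.D K F π ≠ 0 :=
  H9.localData_D_ne_zero L

theorem LocalData.ordDifferential_smul_D [CharZero K] [Nonempty X] (L : LocalData K F X R π)
    (hR : ∀ f : F, ∃ a ∈ R, ∃ b ∈ R, b ≠ 0 ∧ f = a / b)
    (v : Place K F) (hv : 0 < v.ord π) {x : X} (hx : L.Rel v x) {g : F} (hg : g ≠ 0) :
    v.ordDifferential (g • KaehlerDifferential.D K F π) = v.ord g + v.ord π - 1 := by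
  have _hv := hv
  exact H9.localData_ordDifferential_smul_D L (L.isAlgebraic hR) v hx hg

end Fermat.Agent.S24
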