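/-
S24 package A10 (Global): the degree of the divisor of a nonzero differential.
Uses A6 (Residue: `deg_eq_one`, `exists_center`), A8 (Kaehler), A9 (LocalSum), A2, A4.
(helper95; statements exactly as in the coordinator's skeleton.)

Sketch.  `ω = g • D j` (`exists_smul_D_eq`), `g = a / b` with `a, b ∈ R`.  For `v` over the finite
center `c`: `D v = v.ord g + v.ord (j - c) - 1`; over infinity (`0 < v.ord j⁻¹`), since
`D j = -(j⁻¹)⁻² • D j⁻¹`: `D v = v.ord g - v.ord j⁻¹ - 1`.  By `LocalData.sum_ord` and `norm`: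
`∑_{v | c} v.ord a = rootMultiplicity c n_a`, `∑_{v | ∞} v.ord a = - natDegree n_a`
(orders of `φ x (aeval j n)` by `LocalData.order_aeval` after shifting the polynomial), and
`∑_c rootMultiplicity c n = natDegree n` as `K` is algebraically closed.  All degrees are `1`.
-/
import Fermat.Agent.S24.Residue
import Fermat.Agent.S24.Kaehler
import Fermat.Agent.S24.LocalSum
import Fermat.Agent.S24.H95.Degree

set_option autoImplicit false

open AlgebraicCurve KaehlerDifferential

noncomputable section

namespace Fermat.Agent.S24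

variable {K F X : Type*} [Field K] [Field F] [Algebra K F] [Fintype X] {j : F}

namespace H95

open Polynomial

/-- Over an algebraically closed field, the root multiplicities of a nonzero polynomial over any
finite set containing its roots add up to the degree. -/
theorem sum_rootMultiplicity_eq_natDegree [IsAlgClosed K] [DecidableEq K] {p : K[X]} (hp : p ≠ 0)
    (C : Finset K) (hC : p.roots.toFinset ⊆ C) :
    ∑ c ∈ C, (p.rootMultiplicity c : ℤ) = p.natDegree := by
  have h1 : ∑ c ∈ C, p.rootMultiplicity c = ∑ c ∈ p.roots.toFinset, p.rootMultiplicity c := by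
    symm
    refine Finset.sum_subset hC fun c _ hc => ?_
    rw [Multiset.mem_toFinset, Polynomial.mem_roots hp] at hc
    exact Polynomial.rootMultiplicity_eq_zero hc
  have h2 : ∑ c ∈ p.roots.toFinset, p.rootMultiplicity c = p.roots.card := by
    rw [← Multiset.toFinset_sum_count_eq]
    exact Finset.sum_congr rfl fun c _ => (Polynomial.count_roots p).symm
  have h3 : p.roots.card = p.natDegree :=
    Polynomial.splits_iff_card_roots.mp (IsAlgClosed.splits p)
  rw [← Nat.cast_sum, h1, h2, h3]

variable {R : Subalgebra K F}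

/-- The fibre sum of `ord a` over a finite center, from the norm polynomial. -/
theorem sum_ord_fin [IsAlgClosed K] [Nonempty X] {c : K}
    (L : LocalData K F X R (j - algebraMap K F c))
    (hR : ∀ f : F, ∃ a ∈ R, ∃ b ∈ R, b ≠ 0 ∧ f = a / b) {a : F} (ha : a ≠ 0) {p : K[X]}
    (hp : p ≠ 0) (hpa : ∀ x, L.φ x (Polynomial.aeval j p) = ∏ y, L.φ y a) :
    ∑ v ∈ (L.finite_places hR).toFinset, v.ord a = (p.rootMultiplicity c : ℤ) := by
  obtain ⟨x⟩ := ‹Nonempty X›
  have h1 := L.sum_ord hR ha
  rw [← hpa x] at h1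
  have hq : p.comp (Polynomial.X + Polynomial.C c) ≠ 0 := by
    intro h
    rw [Polynomial.comp_eq_zero_iff] at h
    rcases h with h | ⟨-, h⟩
    · exact hp h
    · have := congrArg (fun q => q.coeff 1) h
      simp at this
  have h2 : Polynomial.aeval j p
      = Polynomial.aeval (j - algebraMap K F c) (p.comp (Polynomial.X + Polynomial.C c)) := by
    rw [Polynomial.aeval_comp]
    simp
  have h6 : (p.comp (Polynomial.X + Polynomial.C c)).rootMultiplicity 0
      = p.rootMultiplicity c := by
    rw [Polynomial.rootMultiplicity_eq_natTrailingDegree',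
      ← Polynomial.rootMultiplicity_eq_natTrailingDegree]
  rw [h2, (L.order_aeval x hq).2, h6] at h1
  have hs : (L.s : ℤ) ≠ 0 := by exact_mod_cast L.s_pos.ne'
  exact mul_left_cancel₀ hs h1

/-- The fibre sum of `ord a` over infinity, from the norm polynomial. -/
theorem sum_ord_inf [IsAlgClosed K] [Nonempty X] (L : LocalData K F X R j⁻¹)
    (hR : ∀ f : F, ∃ a ∈ R, ∃ b ∈ R, b ≠ 0 ∧ f = a / b) {a : F} (ha : a ≠ 0) {p : K[X]}
    (hp : p ≠ 0) (hpa : ∀ x, L.φ x (Polynomial.aeval j p) = ∏ y, L.φ y a) :
    ∑ v ∈ (L.finite_places hR).toFinset, v.ord a = -(p.natDegree : ℤ) := by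
  obtain ⟨x⟩ := ‹Nonempty X›
  have h1 := L.sum_ord hR ha
  rw [← hpa x] at h1
  have hj : j ≠ 0 := by
    have := L.π_ne_zero
    exact fun h => this (by rw [h, inv_zero])
  have hrev : p.reverse ≠ 0 := by
    intro h
    have := Polynomial.coeff_zero_reverse p
    rw [h, Polynomial.coeff_zero] at this
    exact hp (Polynomial.leadingCoeff_eq_zero.mp this.symm)
  have h2 : Polynomial.aeval j p = Polynomial.aeval j⁻¹ p.reverse * j ^ p.natDegree := by
    let _ : Invertible j := invertibleOfNonzero hj
    have := Polynomial.eval₂_reverse_mul_pow (algebraMap K F) j p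
    rw [invOf_eq_inv] at this
    rw [Polynomial.aeval_def, Polynomial.aeval_def, this]
  have h3 := L.order_aeval x hrev
  have h4 : p.reverse.rootMultiplicity 0 = 0 := by
    apply Polynomial.rootMultiplicity_eq_zero
    rw [Polynomial.IsRoot, ← Polynomial.coeff_zero_eq_eval_zero, Polynomial.coeff_zero_reverse]
    exact Polynomial.leadingCoeff_ne_zero.mpr hp
  have h5 : (L.φ x j).order = -(L.s : ℤ) := by
    have : L.φ x j = (L.φ x j⁻¹)⁻¹ := by rw [map_inv₀, inv_inv]
    rw [this, lorder_inv, L.order_π]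
  have hjn : L.φ x (j ^ p.natDegree) ≠ 0 := L.φ_ne_zero x (pow_ne_zero _ hj)
  rw [h2, map_mul, lorder_mul h3.1 hjn, h3.2, h4, map_pow, lorder_pow, h5] at h1
  have hs : (L.s : ℤ) ≠ 0 := by exact_mod_cast L.s_pos.ne'
  apply mul_left_cancel₀ hs
  rw [h1]
  push_cast
  ring

end H95

theorem GlobalData.D_ne_zero [Nonempty X] (G : GlobalData K F X j) :
    KaehlerDifferential.D K F j ≠ 0 := by
  have h := (G.fin 0).D_ne_zero
  simpa using h

theorem GlobalData.degree_eq [IsAlgClosed K] [CharZero K] [Nonempty X] (G : GlobalData K F X j)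
    (Z : Finset K) (hZ : ∀ c, c ∉ Z → (G.fin c).ρ = 1)
    (ω : Ω[F⁄K]) (hω : ω ≠ 0) (D : Divisor K F) (hD : ∀ v : Place K F, D v = v.ordDifferential ω) :
    Divisor.degree D =
      (∑ c ∈ Z, ((Fintype.card X : ℤ) - orbCount (G.fin c).ρ)) - Fintype.card X - orbCount G.inf.ρ := by
  classical
  have hR := G.frac
  -- algebraicity over `K(j)`
  have hj0 : j - algebraMap K F 0 = j := by simp
  have halg0 : Algebra.IsAlgebraic (IntermediateField.adjoin K {j - algebraMap K F 0}) F :=
    (G.fin 0).isAlgebraic hR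
  have halg : Algebra.IsAlgebraic (IntermediateField.adjoin K {j}) F := hj0 ▸ halg0
  have hdeg : ∀ v : Place K F, v.deg = 1 := fun v => deg_eq_one j v
  -- `ω = g • D j`, `g = a / b`
  obtain ⟨g, rfl⟩ := exists_smul_D_eq j ω
  have hg : g ≠ 0 := by rintro rfl; simp at hω
  obtain ⟨a, haR, b, hbR, hb, hgab⟩ := hR g
  have ha : a ≠ 0 := by rintro rfl; simp at hgab; exact hg hgab
  obtain ⟨na, hna_fin, hna_inf⟩ := G.norm a haR ha
  obtain ⟨nb, hnb_fin, hnb_inf⟩ := G.norm b hbR hb
  obtain ⟨x₀⟩ := ‹Nonempty X›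
  have hna : na ≠ 0 := by
    rintro rfl
    have h := hna_inf x₀
    rw [map_zero, map_zero] at h
    exact (Finset.prod_ne_zero_iff.mpr fun y _ => G.inf.φ_ne_zero y ha) h.symm
  have hnb : nb ≠ 0 := by
    rintro rfl
    have h := hnb_inf x₀
    rw [map_zero, map_zero] at h
    exact (Finset.prod_ne_zero_iff.mpr fun y _ => G.inf.φ_ne_zero y hb) h.symm
  have : Nonempty X := ⟨x₀⟩
  -- the fibres
  set S : K → Finset (Place K F) := fun c => ((G.fin c).finite_places hR).toFinset with hS
  set Sinf : Finset (Place K F) := (G.inf.finite_places hR).toFinset with hSinf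
  have hmemS : ∀ c v, v ∈ S c ↔ 0 < v.ord (j - algebraMap K F c) := by
    intro c v; simp [hS]
  have hmemSinf : ∀ v, v ∈ Sinf ↔ 0 < v.ord j⁻¹ := by
    intro v; simp [hSinf]
  have hordg : ∀ v : Place K F, v.ord g = v.ord a - v.ord b := by
    intro v; rw [hgab, ord_div v ha hb]
  -- local shape of `D`
  have hDfin : ∀ c, ∀ v ∈ S c,
      D v = v.ord a - v.ord b + (v.ord (j - algebraMap K F c) - 1) := by
    intro c v hv
    have hv' := (hmemS c v).mp hv
    obtain ⟨x, hx⟩ := (G.fin c).exists_rel_of_place hR v hv'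
    have h := (G.fin c).ordDifferential_smul_D hR v hv' hx hg
    have hDj : KaehlerDifferential.D K F (j - algebraMap K F c) = KaehlerDifferential.D K F j := by
      simp
    rw [hDj] at h
    rw [hD, h, hordg]
    ring
  have hDinf : ∀ v ∈ Sinf, D v = v.ord a - v.ord b - v.ord j⁻¹ - 1 := by
    intro v hv
    have hv' := (hmemSinf v).mp hv
    have hj : j ≠ 0 := by
      rintro rfl
      simp at hv'
    obtain ⟨x, hx⟩ := G.inf.exists_rel_of_place hR v hv'
    have hg' : -(g * j ^ 2) ≠ 0 := neg_ne_zero.mpr (mul_ne_zero hg (pow_ne_zero 2 hj))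
    have h := G.inf.ordDifferential_smul_D hR v hv' hx hg'
    have hDj : (-(g * j ^ 2)) • KaehlerDifferential.D K F j⁻¹ = g • KaehlerDifferential.D K F j := by
      rw [Derivation.leibniz_inv, smul_smul]
      congr 1
      field_simp
    rw [hDj] at h
    rw [hD, h, ord_neg, v.ord_mul hg (pow_ne_zero 2 hj), ord_pow, hordg]
    have : v.ord j = -v.ord j⁻¹ := by rw [v.ord_inv]; ring
    rw [this]
    push_cast
    ring
  -- fibre sums
  have hsumfin : ∀ c, ∑ v ∈ S c, D v
      = (na.rootMultiplicity c : ℤ) - nb.rootMultiplicity c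
        + ((Fintype.card X : ℤ) - orbCount (G.fin c).ρ) := by
    intro c
    rw [Finset.sum_congr rfl (hDfin c), Finset.sum_add_distrib, Finset.sum_sub_distrib,
      Finset.sum_sub_distrib]
    have h1 := H95.sum_ord_fin (G.fin c) hR ha hna (hna_fin c)
    have h2 := H95.sum_ord_fin (G.fin c) hR hb hnb (hnb_fin c)
    have h3 := (G.fin c).sum_ord_π hR
    have h4 := (G.fin c).card_places hR
    rw [h1, h2, h3]
    simp only [Finset.sum_const, mul_one, nsmul_eq_mul]
    rw [h4]
  have hsuminf : ∑ v ∈ Sinf, D v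
      = -(na.natDegree : ℤ) + nb.natDegree - Fintype.card X - orbCount G.inf.ρ := by
    rw [Finset.sum_congr rfl hDinf, Finset.sum_sub_distrib, Finset.sum_sub_distrib,
      Finset.sum_sub_distrib]
    have h1 := H95.sum_ord_inf G.inf hR ha hna hna_inf
    have h2 := H95.sum_ord_inf G.inf hR hb hnb hnb_inf
    have h3 := G.inf.sum_ord_π hR
    have h4 := G.inf.card_places hR
    rw [h1, h2, h3]
    simp only [Finset.sum_const, mul_one, nsmul_eq_mul]
    rw [h4]
    ring
  -- unramified centers
  have hunr : ∀ c, c ∉ Z → (Fintype.card X : ℤ) - orbCount (G.fin c).ρ = 0 := by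
    intro c hc
    have h3 := (G.fin c).sum_ord_π hR
    have h4 := (G.fin c).card_places hR
    have h5 : ∑ v ∈ ((G.fin c).finite_places hR).toFinset, v.ord (j - algebraMap K F c)
        = ∑ _v ∈ ((G.fin c).finite_places hR).toFinset, (1 : ℤ) := by
      refine Finset.sum_congr rfl fun v hv => ?_
      exact (G.fin c).ord_π_eq_one_of_ρ_eq_one hR (hZ c hc) v (by simpa using hv)
    rw [h5] at h3
    simp only [Finset.sum_const, mul_one, nsmul_eq_mul] at h3
    rw [h4] at h3
    rw [h3]; ring
  -- the set of relevant centers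
  let cen : Place K F → K := fun v =>
    if h : ∃ c : K, 0 < v.ord (j - algebraMap K F c) then h.choose else 0
  let C : Finset K := Z ∪ na.roots.toFinset ∪ nb.roots.toFinset ∪ D.support.image cen
  let T : Finset (Place K F) := C.biUnion S ∪ Sinf
  have hT : D.support ⊆ T := by
    intro v hv
    rcases exists_center j v with h | h
    · refine Finset.mem_union_right _ ((hmemSinf v).mpr ?_)
      rw [v.ord_inv]; omega
    · refine Finset.mem_union_left _ (Finset.mem_biUnion.mpr ⟨cen v, ?_, ?_⟩)
      · exact Finset.mem_union_right _ (Finset.mem_image_of_mem cen hv)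
      · rw [hmemS]
        simp only [cen, dif_pos h]
        exact h.choose_spec
  rw [H95.degree_eq_sum_of_support_subset hdeg D T hT]
  have hdisj : Disjoint (C.biUnion S) Sinf := by
    rw [Finset.disjoint_left]
    intro v hv hv'
    obtain ⟨c, -, hvc⟩ := Finset.mem_biUnion.mp hv
    refine not_center_of_pole j v ?_ c ((hmemS c v).mp hvc)
    have := (hmemSinf v).mp hv'
    rw [v.ord_inv] at this; omega
  have hpd : (↑C : Set K).PairwiseDisjoint S := by
    intro c _ c' _ hcc
    rw [Function.onFun, Finset.disjoint_left]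
    intro v hvc hvc'
    exact hcc (center_unique j v ((hmemS c v).mp hvc) ((hmemS c' v).mp hvc'))
  rw [Finset.sum_union hdisj, Finset.sum_biUnion hpd, Finset.sum_congr rfl fun c _ => hsumfin c,
    hsuminf, Finset.sum_add_distrib, Finset.sum_sub_distrib]
  have hZC : Z ⊆ C := by
    intro c hc
    simp only [C, Finset.mem_union]
    exact Or.inl (Or.inl (Or.inl hc))
  have haC : na.roots.toFinset ⊆ C := by
    intro c hc
    simp only [C, Finset.mem_union]
    exact Or.inl (Or.inl (Or.inr hc))
  have hbC : nb.roots.toFinset ⊆ C := by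
    intro c hc
    simp only [C, Finset.mem_union]
    exact Or.inl (Or.inr hc)
  rw [H95.sum_rootMultiplicity_eq_natDegree hna C haC,
    H95.sum_rootMultiplicity_eq_natDegree hnb C hbC,
    ← Finset.sum_subset hZC fun c _ hc => hunr c hc]
  ring

end Fermat.Agent.S24
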