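/-
S24 package NUM (Numerics): the genus formula is a natural number `g`, and `2g - 2` is the
Riemann–Hurwitz count for the permutation triple `(S, T, S * T)` acting on `SL(2,ℤ)/Γ₀(N)`.

Proof (helper46): `Fermat.Agent.S24.H46.exists_genus_nat` (orbit counts of `S`, `S * T` from the
fixed-point counts A2 of S20, `T`-orbits = A3, index = A1; parity from signs of permutations,
`Fermat.Agent.S24.H46.even_card_add_card_orbits`; nonnegativity from helper72's cocycle bound),
plus the translation between orbits of `⟨g⟩ ≤ SL(2,ℤ)` and `orbCount (toPerm g)`.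
-/
import Mathlib
import Fermat.Prelude.Def_ModularCurve_GenusNumerics
import Fermat.Agent.S24.Defs
import Fermat.Agent.S24.H46.Numerics

set_option autoImplicit false

open CongruenceSubgroup ModularGroup
open scoped MatrixGroups

noncomputable section

namespace Fermat.Agent.S24

/-- `orbCount` of the permutation induced by `g` is the number of `⟨g⟩`-orbits. -/
theorem H46.orbCount_toPerm {G X : Type*} [Group G] [MulAction G X] (g : G) :
    orbCount (MulAction.toPerm g : Equiv.Perm X)
      = Nat.card (MulAction.orbitRel.Quotient (Subgroup.zpowers g) X) := by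
  unfold orbCount
  refine Nat.card_congr (Quotient.congr (Equiv.refl X) (fun a b => ?_))
  have h1 := H46.mk_eq_mk_iff_sameCycle (G := Equiv.Perm X) (X := X) (MulAction.toPerm g) a b
  have h2 := H46.mk_eq_mk_iff_sameCycle g a b
  have h3 : (MulAction.toPerm (MulAction.toPerm g : Equiv.Perm X) : Equiv.Perm X)
      = MulAction.toPerm g := by
    ext x; rfl
  rw [h3] at h1
  rw [Quotient.eq''] at h1 h2
  exact h1.trans h2.symm

theorem genus_numerics (N : ℕ) [NeZero N] :
    ∃ g : ℕ, (g : ℚ) = ModularCurve.genusFormula N ∧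
      2 * (g : ℤ) - 2 =
        ((Nat.card (SL(2, ℤ) ⧸ Gamma0 N) : ℤ)
            - orbCount (MulAction.toPerm (S * T) : Equiv.Perm (SL(2, ℤ) ⧸ Gamma0 N)))
          + ((Nat.card (SL(2, ℤ) ⧸ Gamma0 N) : ℤ)
            - orbCount (MulAction.toPerm S : Equiv.Perm (SL(2, ℤ) ⧸ Gamma0 N)))
          - Nat.card (SL(2, ℤ) ⧸ Gamma0 N)
          - orbCount (MulAction.toPerm T : Equiv.Perm (SL(2, ℤ) ⧸ Gamma0 N)) := by
  have hS : orbCount (MulAction.toPerm S : Equiv.Perm (SL(2, ℤ) ⧸ Gamma0 N))
      = Nat.card (MulAction.orbitRel.Quotient (Subgroup.zpowers S) (SL(2, ℤ) ⧸ Gamma0 N)) :=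
    H46.orbCount_toPerm S
  have hST : orbCount (MulAction.toPerm (S * T) : Equiv.Perm (SL(2, ℤ) ⧸ Gamma0 N))
      = Nat.card (MulAction.orbitRel.Quotient (Subgroup.zpowers (S * T))
          (SL(2, ℤ) ⧸ Gamma0 N)) :=
    H46.orbCount_toPerm (S * T)
  have hT : orbCount (MulAction.toPerm T : Equiv.Perm (SL(2, ℤ) ⧸ Gamma0 N))
      = Nat.card (MulAction.orbitRel.Quotient (Subgroup.zpowers T) (SL(2, ℤ) ⧸ Gamma0 N)) :=
    H46.orbCount_toPerm T
  obtain ⟨g, hg, h2⟩ := H46.exists_genus_nat N
  refine ⟨g, hg, ?_⟩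
  rw [hS, hST, hT]
  linarith

end Fermat.Agent.S24
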