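/-
S24 package AN-EXP: convergent Laurent expansions along a filter (`HasExp`, see ModDefs.lean).
Statements FINAL.  Private helpers in `Fermat.Agent.S24.Hnn`.
-/
import Fermat.Agent.S24.ModDefs
import Fermat.Agent.S24.H62.ExpUnique
import Fermat.Agent.S24.H62.ExpMore

set_option autoImplicit false

open UpperHalfPlane Filter Topology ModularCurve
open scoped MatrixGroups Real

noncomputable section

namespace Fermat.Agent.S24

/-- `u ↦ ζ u` on Laurent series: multiplies the `n`-th coefficient by `ζ ^ n`. -/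
def scaleHom {C : Type*} [Field C] (ζ : Cˣ) : LaurentSeries C →+* LaurentSeries C where
  toFun L := ⟨fun n => ((ζ ^ n : Cˣ) : C) * L.coeff n, by
    refine L.isPWO_support.mono fun n hn => ?_
    simp only [Function.mem_support, ne_eq, mul_eq_zero, not_or] at hn
    exact hn.2⟩
  map_zero' := by ext n; simp
  map_one' := by
    ext n
    by_cases h : n = 0
    · subst h; simp
    · simp [HahnSeries.coeff_one, h]
  map_add' x y := by ext n; simp [mul_add]
  map_mul' x y := by
    ext n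
    show ((ζ ^ n : Cˣ) : C) * (x * y).coeff n = _
    rw [HahnSeries.coeff_mul, HahnSeries.coeff_mul, Finset.mul_sum]
    refine Finset.sum_congr ?_ fun ij hij => ?_
    · ext ij
      simp only [Finset.mem_antidiagonal, HahnSeries.mem_support, ne_eq, mul_eq_zero,
        Units.ne_zero, false_or]
    · have hn : ij.1 + ij.2 = n := (Finset.mem_antidiagonal.mp hij).2.2
      show ((ζ ^ n : Cˣ) : C) * (x.coeff ij.1 * y.coeff ij.2) =
        (((ζ ^ ij.1 : Cˣ) : C) * x.coeff ij.1) * (((ζ ^ ij.2 : Cˣ) : C) * y.coeff ij.2)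
      rw [← hn, zpow_add, Units.val_mul]
      ring

@[simp] theorem scaleHom_coeff {C : Type*} [Field C] (ζ : Cˣ) (L : LaurentSeries C) (n : ℤ) :
    (scaleHom ζ L).coeff n = ((ζ ^ n : Cˣ) : C) * L.coeff n := rfl

theorem order_scaleHom {C : Type*} [Field C] (ζ : Cˣ) (L : LaurentSeries C) :
    (scaleHom ζ L).order = L.order := by
  by_cases hL : L = 0
  · subst hL; simp
  have hne : scaleHom ζ L ≠ 0 := by
    intro h
    apply hL
    ext n
    have := congrArg (fun M : LaurentSeries C => M.coeff n) h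
    simp only [scaleHom_coeff, HahnSeries.coeff_zero, mul_eq_zero, Units.ne_zero, false_or] at this
    simpa using this
  refine le_antisymm (HahnSeries.order_le_of_coeff_ne_zero ?_)
    (HahnSeries.order_le_of_coeff_ne_zero ?_)
  · rw [scaleHom_coeff]
    exact mul_ne_zero (Units.ne_zero _) ((mt HahnSeries.coeff_order_eq_zero.mp hL))
  · have := (mt HahnSeries.coeff_order_eq_zero.mp hne)
    rw [scaleHom_coeff] at this
    exact right_ne_zero_of_mul this

theorem coeffMap_scaleHom {C C' : Type*} [Field C] [Field C'] (f : C →+* C') (ζ : Cˣ)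
    (L : LaurentSeries C) :
    coeffMap f (scaleHom ζ L) = scaleHom (Units.map (f : C →* C') ζ) (coeffMap f L) := by
  ext n
  simp only [coeffMap_coeff, scaleHom_coeff, map_mul]
  congr 1
  rw [← map_zpow]
  rfl

theorem order_coeffMap {C C' : Type*} [Field C] [Field C'] (f : C →+* C') (L : LaurentSeries C) :
    (coeffMap f L).order = L.order := by
  by_cases hL : L = 0
  · subst hL; simp
  have hne : coeffMap f L ≠ 0 := by
    intro h
    apply hL
    ext n
    have := congrArg (fun M : LaurentSeries C' => M.coeff n) h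
    simpa using this
  refine le_antisymm (HahnSeries.order_le_of_coeff_ne_zero ?_)
    (HahnSeries.order_le_of_coeff_ne_zero ?_)
  · rw [coeffMap_coeff]
    exact (map_ne_zero f).mpr ((mt HahnSeries.coeff_order_eq_zero.mp hL))
  · have := (mt HahnSeries.coeff_order_eq_zero.mp hne)
    rw [coeffMap_coeff] at this
    exact (map_ne_zero f).mp this

theorem coeffMap_injective {C C' : Type*} [Field C] [Field C'] (f : C →+* C') :
    Function.Injective (coeffMap f) := by
  intro x y h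
  ext n
  have := congrArg (fun M : LaurentSeries C' => M.coeff n) h
  simp only [coeffMap_coeff] at this
  exact f.injective this

theorem order_qExpand {C : Type*} [Field C] (m : ℕ) [NeZero m] (L : LaurentSeries C) :
    (qExpand C m L).order = m * L.order := by
  by_cases hL : L = 0
  · subst hL; simp
  have hne : qExpand C m L ≠ 0 := by
    intro h
    exact hL (qExpand_injective m (by rw [h, map_zero]))
  have hm : (0 : ℤ) < m := by exact_mod_cast Nat.pos_of_ne_zero (NeZero.ne m)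
  refine le_antisymm (HahnSeries.order_le_of_coeff_ne_zero ?_) ?_
  · rw [qExpand_coeff_mul]
    exact (mt HahnSeries.coeff_order_eq_zero.mp hL)
  · have h := (mt HahnSeries.coeff_order_eq_zero.mp hne)
    by_cases hd : (m : ℤ) ∣ (qExpand C m L).order
    · obtain ⟨k, hk⟩ := hd
      rw [hk, qExpand_coeff_mul] at h
      rw [hk]
      exact mul_le_mul_of_nonneg_left (HahnSeries.order_le_of_coeff_ne_zero h) hm.le
    · exact absurd (qExpand_coeff_of_not_dvd m L hd) h

theorem qN_ne_zero (N : ℕ) (τ : ℍ) : qN N τ ≠ 0 :=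
  H62.qN_ne_zero N τ

theorem tendsto_qN (N : ℕ) [NeZero N] : Tendsto (qN N) atImInfty (𝓝[≠] 0) :=
  H62.tendsto_qN_nhdsNE N

namespace HasExp

variable {𝔣 : Filter ℍ} {u f g : ℍ → ℂ} {L M : LaurentSeries ℂ}

theorem const (𝔣 : Filter ℍ) (u : ℍ → ℂ) (c : ℂ) :
    HasExp 𝔣 u (fun _ => c) (HahnSeries.C c) := by
  refine Eventually.of_forall fun τ => ?_
  have h := hasSum_single (f := fun n : ℤ => (HahnSeries.C c : LaurentSeries ℂ).coeff n * u τ ^ n)
    (0 : ℤ) (fun n hn => by
      rw [HahnSeries.C_apply, HahnSeries.coeff_single_of_ne hn, zero_mul])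
  simpa [HahnSeries.C_apply] using h

theorem add (hf : HasExp 𝔣 u f L) (hg : HasExp 𝔣 u g M) : HasExp 𝔣 u (f + g) (L + M) := by
  filter_upwards [H62.hasExp_eventually hf, H62.hasExp_eventually hg] with τ h1 h2
  have := h1.add h2
  simpa [add_mul] using this

theorem mul (hu : ∀ᶠ τ in 𝔣, u τ ≠ 0) (hf : HasExp 𝔣 u f L) (hg : HasExp 𝔣 u g M) :
    HasExp 𝔣 u (f * g) (L * M) := by
  filter_upwards [H62.hasExp_eventually hf, H62.hasExp_eventually hg, hu] with τ h1 h2 hτ
  exact H62.hasSum_mul hτ h1 h2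

theorem congr (hf : HasExp 𝔣 u f L) (h : f =ᶠ[𝔣] g) : HasExp 𝔣 u g L :=
  H62.hasExp_congr hf h

/-- Uniqueness of the expansion. -/
theorem eq_zero [𝔣.NeBot] (hu : Tendsto u 𝔣 (𝓝[≠] 0)) (hf : HasExp 𝔣 u f L) (h0 : f =ᶠ[𝔣] 0) :
    L = 0 :=
  H62.hasExp_eq_zero hu hf h0

theorem unique [𝔣.NeBot] (hu : Tendsto u 𝔣 (𝓝[≠] 0)) (hf : HasExp 𝔣 u f L)
    (hg : HasExp 𝔣 u f M) : L = M :=
  H62.hasExp_unique hu hf hg

theorem eventuallyEq_zero (hf : HasExp 𝔣 u f 0) : f =ᶠ[𝔣] 0 :=
  H62.hasExp_eventuallyEq_zero hf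

/-- From a power series expansion of `f · q`. -/
theorem of_hasSum_mul (p : PowerSeries ℂ) (f : ℍ → ℂ)
    (h : ∀ τ : ℍ, HasSum (fun n : ℕ => PowerSeries.coeff n p * qN 1 τ ^ n) (f τ * qN 1 τ)) :
    HasExp atImInfty (qN 1) f
      (HahnSeries.single (-1 : ℤ) (1 : ℂ) * HahnSeries.ofPowerSeries ℤ ℂ p) := by
  refine Eventually.of_forall fun τ => ?_
  have hq := qN_ne_zero 1 τ
  have hcoeff : ∀ k : ℕ, (HahnSeries.single (-1 : ℤ) (1 : ℂ) *
      HahnSeries.ofPowerSeries ℤ ℂ p).coeff (-1 + (k : ℤ)) = PowerSeries.coeff k p := by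
    intro k
    rw [add_comm, HahnSeries.coeff_single_mul_add, one_mul, HahnSeries.ofPowerSeries_apply_coeff]
  have hlow : ∀ n < (-1 : ℤ), (HahnSeries.single (-1 : ℤ) (1 : ℂ) *
      HahnSeries.ofPowerSeries ℤ ℂ p).coeff n = 0 := by
    intro n hn
    rw [HahnSeries.coeff_single_mul, one_mul, HahnSeries.ofPowerSeries_apply,
      HahnSeries.embDomain_of_notMem_range]
    simp only [Nat.castOrderEmbedding_apply, Set.mem_range, not_exists]
    intro k hk
    omega
  rw [H62.hasSum_int_iff_nat hlow hq]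
  have e : f τ / qN 1 τ ^ (-1 : ℤ) = f τ * qN 1 τ := by
    rw [zpow_neg_one, div_inv_eq_mul]
  rw [e]
  simpa only [hcoeff] using h τ

/-- Transport along `τ ↦ (A τ + B) / D`: if `f = ∑ Lₙ qⁿ` then
`f ((Aτ+B)/D) = ∑ Lₙ ζⁿ u^{m n}` with `u = e^{2πiτ/N}`, `m = N A / D`, `ζ = e^{2πi B/D}`. -/
theorem comp_affine (hf : HasExp atImInfty (qN 1) f L) (N A B D m : ℕ) [NeZero N] [NeZero m]
    (hA : 0 < A) (hD : 0 < D) (hm : m * D = N * A) (ζ : ℂˣ)
    (hζ : (ζ : ℂ) = Complex.exp (2 * π * Complex.I * B / D)) :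
    HasExp atImInfty (qN N) (fun τ => f (ofComplex (((A : ℂ) * τ + B) / D)))
      (qExpand ℂ m (scaleHom ζ L)) := by
  refine H62.hasExp_comp_affine hf N A B D m (NeZero.ne m) hA hD hm (ζ : ℂ) hζ _ ?_ ?_
  · intro n
    rw [qExpand_coeff_mul, scaleHom_coeff, Units.val_zpow_eq_zpow_val]
  · intro k hk
    exact qExpand_coeff_of_not_dvd m _ hk

/-- Transport along `τ ↦ τ + k`. -/
theorem comp_T_zpow (N : ℕ) [NeZero N] (hf : HasExp atImInfty (qN N) f L) (k : ℤ) (ζ : ℂˣ)
    (hζ : (ζ : ℂ) = Complex.exp (2 * π * Complex.I * k / N)) :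
    HasExp atImInfty (qN N) (fun τ => f (ModularGroup.T ^ k • τ)) (scaleHom ζ L) := by
  refine H62.hasExp_comp_T_zpow N hf k (ζ : ℂ) hζ _ fun n => ?_
  rw [scaleHom_coeff, Units.val_zpow_eq_zpow_val]

/-- Moderate growth. -/
theorem isBoundedAtImInfty (N : ℕ) [NeZero N] (hf : HasExp atImInfty (qN N) f L) (M : ℕ)
    (hM : -((N * M : ℕ) : ℤ) ≤ L.order) :
    IsBoundedAtImInfty (fun τ => ModularForm.discriminant τ ^ M * f τ) :=
  H62.hasExp_isBoundedAtImInfty N hf M hM

end HasExp

end Fermat.Agent.S24
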